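/-
S56 (Taylor-Wiles primes), block (F) = the flat local condition at `p`.  Sub-block F-A: ORDERS.
DEFINITIONS.  Blueprint: team report 279.

`P : Plc` a place of `Qb` over `p`, `O = P.A` its valuation ring, `Γ ≤ GQ` a subgroup (of the decomposition group).
A *dual pair* over `Γ` consists of two finite abelian groups `X`, `X'` with additive `Γ`-actions, a perfect
equivariant pairing `e : X × X' → Qbˣ`, and two `O`-lattices `H ⊆ Map(X,Qb)`, `B ⊆ Map(X',Qb)` which are rings, have
`O`-bases consisting of `Γ`-equivariant functions, and are dual to each other for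
`⟨f,b⟩ = (1/n) ∑_{x,w} f x * b w * (e x w)⁻¹`.
(`H` = a Hopf order of the finite group scheme with points `X`, `B` = the dual Hopf order.)
-/
import Fermat.Agent.PT.Local.Val

set_option autoImplicit false

open Fermat.Agent.PT.Local

noncomputable section

namespace Fermat.Agent.S56.F

/-- `a ∣ b` in the valuation ring of `P` (for `a b : Qb`): `v b ≤ v a` (multiplicative valuation). -/
def Dv (P : Plc) (a b : Qb) : Prop := P.v b ≤ P.v a

/-- `a` lies in the maximal ideal of the valuation ring. -/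
def InM (P : Plc) (a : Qb) : Prop := P.v a < 1

/-- `f : X → Qb` is equivariant for the action `act` of `Γ`. -/
def Equi {Γ : Subgroup GQ} {X : Type} [AddCommGroup X] (act : Γ → X →+ X) (f : X → Qb) : Prop :=
  ∀ (γ : Γ) (x : X), f (act γ x) = (γ : GQ) (f x)

/-- The normalised Fourier pairing between functions on `X` and functions on `X'`. -/
def pairing {X X' : Type} [Finite X] [Finite X'] (e : X → X' → Qb) (f : X → Qb) (b : X' → Qb) : Qb :=
  letI := Fintype.ofFinite X
  letI := Fintype.ofFinite X'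
  (Nat.card X : Qb)⁻¹ * ∑ x : X, ∑ w : X', f x * b w * (e x w)⁻¹

/-- `L` is the `O`-span of a `Qb`-basis of `Map(X,Qb)` consisting of equivariant functions. -/
def HasEquiBasis (P : Plc) {Γ : Subgroup GQ} {X : Type} [AddCommGroup X] (act : Γ → X →+ X)
    (L : Submodule P.A (X → Qb)) : Prop :=
  ∃ (ι : Type) (_ : Fintype ι) (f : ι → X → Qb), (∀ i, Equi act (f i)) ∧ LinearIndependent Qb f ∧
    Submodule.span Qb (Set.range f) = ⊤ ∧ L = Submodule.span P.A (Set.range f)

/-- A perfect equivariant pairing of two abelian groups with additive `Γ`-actions. -/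
structure PerfPair (Γ : Subgroup GQ) (X X' : Type) [AddCommGroup X] [AddCommGroup X'] where
  /-- the action on `X` -/
  act : Γ → X →+ X
  /-- the action on `X'` -/
  act' : Γ → X' →+ X'
  /-- the pairing -/
  e : X → X' → Qb
  e_ne_zero : ∀ x w, e x w ≠ 0
  e_add_left : ∀ x y w, e (x + y) w = e x w * e y w
  e_add_right : ∀ x w w', e x (w + w') = e x w * e x w'
  nondeg_left : ∀ x, (∀ w, e x w = 1) → x = 0
  nondeg_right : ∀ w, (∀ x, e x w = 1) → w = 0
  e_act : ∀ (γ : Γ) x w, e (act γ x) (act' γ w) = (γ : GQ) (e x w)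

/-- A dual pair of orders over `Γ`. -/
structure DualPair (P : Plc) (Γ : Subgroup GQ) (X X' : Type) [AddCommGroup X] [AddCommGroup X']
    [Finite X] [Finite X'] extends PerfPair Γ X X' where
  /-- the order on `X` -/
  H : Submodule P.A (X → Qb)
  /-- the order on `X'` -/
  B : Submodule P.A (X' → Qb)
  one_mem_H : (1 : X → Qb) ∈ H
  mul_mem_H : ∀ f ∈ H, ∀ g ∈ H, f * g ∈ H
  one_mem_B : (1 : X' → Qb) ∈ B
  mul_mem_B : ∀ f ∈ B, ∀ g ∈ B, f * g ∈ B
  basis_H : HasEquiBasis P act H
  basis_B : HasEquiBasis P act' B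
  mem_B_iff : ∀ b : X' → Qb, b ∈ B ↔ ∀ f ∈ H, pairing e f b ∈ P.A
  mem_H_iff : ∀ f : X → Qb, f ∈ H ↔ ∀ b ∈ B, pairing e f b ∈ P.A

namespace PerfPair

variable {Γ : Subgroup GQ} {X X' : Type} [AddCommGroup X] [AddCommGroup X']

/-- A subgroup stable under the action. -/
def Stable (𝒟 : PerfPair Γ X X') (C : AddSubgroup X) : Prop := ∀ (γ : Γ), ∀ x ∈ C, 𝒟.act γ x ∈ C

/-- The orthogonal of a subgroup of `X`. -/
def perp (𝒟 : PerfPair Γ X X') (C : AddSubgroup X) : AddSubgroup X' where
  carrier := {w | ∀ x ∈ C, 𝒟.e x w = 1}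
  zero_mem' := by
    intro x _
    have h := 𝒟.e_add_right x 0 0
    rw [add_zero] at h
    exact (mul_right_eq_self₀.mp h.symm).resolve_right (𝒟.e_ne_zero x 0)
  add_mem' := by
    intro w w' hw hw' x hx
    rw [𝒟.e_add_right, hw x hx, hw' x hx, one_mul]
  neg_mem' := by
    intro w hw x hx
    have h0 : 𝒟.e x 0 = 1 := by
      have h := 𝒟.e_add_right x 0 0
      rw [add_zero] at h
      exact (mul_right_eq_self₀.mp h.symm).resolve_right (𝒟.e_ne_zero x 0)
    have h := 𝒟.e_add_right x w (-w)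
    rw [add_neg_cancel, h0, hw x hx, one_mul] at h
    exact h.symm

/-- The pairing with the roles of `X` and `X'` exchanged. -/
def swap (𝒟 : PerfPair Γ X X') : PerfPair Γ X' X where
  act := 𝒟.act'
  act' := 𝒟.act
  e := fun w x => 𝒟.e x w
  e_ne_zero := fun w x => 𝒟.e_ne_zero x w
  e_add_left := fun w w' x => 𝒟.e_add_right x w w'
  e_add_right := fun w x y => 𝒟.e_add_left x y w
  nondeg_left := 𝒟.nondeg_right
  nondeg_right := 𝒟.nondeg_left
  e_act := fun γ w x => 𝒟.e_act γ x w

/-- The stabiliser in `Γ` (as a set of elements of `GQ`) of a point. -/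
def stab (𝒟 : PerfPair Γ X X') (x : X) : Set GQ := {σ | ∃ h : σ ∈ Γ, 𝒟.act ⟨σ, h⟩ x = x}

/-- elements of `Qb` fixed by the stabiliser of `x`. -/
def FixedByStab (𝒟 : PerfPair Γ X X') (x : X) (a : Qb) : Prop := ∀ σ ∈ 𝒟.stab x, σ a = a

end PerfPair

namespace DualPair

variable {P : Plc} {Γ : Subgroup GQ} {X X' : Type} [AddCommGroup X] [AddCommGroup X']
  [Finite X] [Finite X']

/-- "`s(x) ≥ v(a)`": `a` divides `f x - f 0` for all `f` in the order. -/
def Sge (𝒟 : DualPair P Γ X X') (x : X) (a : Qb) : Prop := ∀ f ∈ 𝒟.H, Dv P a (f x - f 0)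

/-- the same on the dual side -/
def Sge' (𝒟 : DualPair P Γ X X') (w : X') (a : Qb) : Prop := ∀ b ∈ 𝒟.B, Dv P a (b w - b 0)

/-- "`s(x) > 0`" : `x` lies in the connected part. -/
def Conn (𝒟 : DualPair P Γ X X') (x : X) : Prop := ∃ a, InM P a ∧ 𝒟.Sge x a

/-- the same on the dual side -/
def Conn' (𝒟 : DualPair P Γ X X') (w : X') : Prop := ∃ a, InM P a ∧ 𝒟.Sge' w a

end DualPair

end Fermat.Agent.S56.F

end
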