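/-
S56 block (F), F-A ORDERS: Fourier calculus of a perfect pairing `e : X × X' → Qbˣ` of finite abelian groups.
Everything is stated for a `PerfPair` (so that it can be used in the CONSTRUCTION of dual pairs); by the `extends` clause every lemma
`PerfPair.foo` can be used as `𝒟.foo` for `𝒟 : DualPair P Γ X X'`.
(Blueprint: report 279.)
-/
import Fermat.Agent.S56.F.Order.Defs

set_option autoImplicit false
set_option linter.unusedSectionVars false

open Fermat.Agent.PT.Local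

noncomputable section

namespace Fermat.Agent.S56.F

/-- (aux) the sum of the values of a nontrivial character is `0`. -/
theorem Fourier_sum_char {A : Type*} [AddCommGroup A] [Fintype A] (χ : A → Qb)
    (hχ : ∀ a b, χ (a + b) = χ a * χ b) (a₀ : A) (h : χ a₀ ≠ 1) : ∑ a, χ a = 0 := by
  have h1 : χ a₀ * ∑ a, χ a = ∑ a, χ a := by
    rw [Finset.mul_sum]
    simp_rw [← hχ]
    exact Equiv.sum_comp (Equiv.addLeft a₀) χ
  have h2 : (χ a₀ - 1) * ∑ a, χ a = 0 := by
    rw [sub_mul, h1, one_mul, sub_self]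
  exact (mul_eq_zero.1 h2).resolve_left (sub_ne_zero.2 h)

/-- (aux) counting the elements of a subgroup. -/
theorem Fourier_sum_ite_mem {A : Type*} [AddCommGroup A] [Fintype A] (D : AddSubgroup A)
    [DecidablePred (· ∈ D)] (z : Qb) :
    ∑ a : A, (if a ∈ D then z else 0) = (Nat.card D : Qb) * z := by
  rw [← Finset.sum_filter, Finset.sum_const, nsmul_eq_mul, Nat.card_eq_fintype_card,
    Fintype.card_subtype]

namespace PerfPair

variable {Γ : Subgroup GQ} {X X' : Type} [AddCommGroup X] [AddCommGroup X']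
  [Finite X] [Finite X'] (𝒟 : PerfPair Γ X X')

theorem e_zero_left (w : X') : 𝒟.e 0 w = 1 := by
  have h := 𝒟.e_add_left 0 0 w
  rw [add_zero] at h
  exact (mul_right_eq_self₀.mp h.symm).resolve_right (𝒟.e_ne_zero 0 w)

theorem e_zero_right (x : X) : 𝒟.e x 0 = 1 := by
  have h := 𝒟.e_add_right x 0 0
  rw [add_zero] at h
  exact (mul_right_eq_self₀.mp h.symm).resolve_right (𝒟.e_ne_zero x 0)

theorem e_neg_left (x : X) (w : X') : 𝒟.e (-x) w = (𝒟.e x w)⁻¹ := by
  apply eq_inv_of_mul_eq_one_left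
  rw [← 𝒟.e_add_left, neg_add_cancel, 𝒟.e_zero_left]

theorem e_neg_right (x : X) (w : X') : 𝒟.e x (-w) = (𝒟.e x w)⁻¹ := by
  apply eq_inv_of_mul_eq_one_left
  rw [← 𝒟.e_add_right, neg_add_cancel, 𝒟.e_zero_right]

theorem e_nsmul_left (n : ℕ) (x : X) (w : X') : 𝒟.e (n • x) w = 𝒟.e x w ^ n := by
  induction n with
  | zero => rw [zero_nsmul, pow_zero, 𝒟.e_zero_left]
  | succ n ih => rw [succ_nsmul, 𝒟.e_add_left, ih, pow_succ]

/-- values of `e` are roots of unity, hence units of `O`. -/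
theorem v_e (P : Plc) (x : X) (w : X') : P.v (𝒟.e x w) = 1 := by
  have hn : Nat.card X ≠ 0 := Nat.card_pos.ne'
  have h1 : 𝒟.e x w ^ Nat.card X = 1 := by
    rw [← 𝒟.e_nsmul_left, card_nsmul_eq_zero', 𝒟.e_zero_left]
  have h2 : P.v (𝒟.e x w) ^ Nat.card X = 1 := by rw [← map_pow, h1, map_one]
  exact (pow_eq_one_iff_of_nonneg zero_le hn).1 h2

/-- orthogonality: `∑_w e(x,w) = #X'` if `x = 0`, `0` otherwise. -/
theorem sum_e_right [Fintype X'] [DecidableEq X] (x : X) :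
    ∑ w : X', 𝒟.e x w = if x = 0 then (Nat.card X' : Qb) else 0 := by
  split_ifs with hx
  · subst hx
    simp only [𝒟.e_zero_left]
    rw [Finset.sum_const, Finset.card_univ, nsmul_eq_mul, mul_one, Nat.card_eq_fintype_card]
  · have h1 : ∃ w₀, 𝒟.e x w₀ ≠ 1 := by
      by_contra hcon
      push Not at hcon
      exact hx (𝒟.nondeg_left x hcon)
    obtain ⟨w₀, hw₀⟩ := h1
    exact Fourier_sum_char (fun w => 𝒟.e x w) (fun a b => 𝒟.e_add_right x a b) w₀ hw₀

theorem sum_e_left [Fintype X] [DecidableEq X'] (w : X') :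
    ∑ x : X, 𝒟.e x w = if w = 0 then (Nat.card X : Qb) else 0 := by
  split_ifs with hw
  · subst hw
    simp only [𝒟.e_zero_right]
    rw [Finset.sum_const, Finset.card_univ, nsmul_eq_mul, mul_one, Nat.card_eq_fintype_card]
  · have h1 : ∃ x₀, 𝒟.e x₀ w ≠ 1 := by
      by_contra hcon
      push Not at hcon
      exact hw (𝒟.nondeg_right w hcon)
    obtain ⟨x₀, hx₀⟩ := h1
    exact Fourier_sum_char (fun x => 𝒟.e x w) (fun a b => 𝒟.e_add_left a b w) x₀ hx₀

include 𝒟 in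
/-- `#X = #X'` (the characters `e(·,w)` are linearly independent (Dedekind) in `Map(X,Qb)`, and symmetrically). -/
theorem card_eq : Nat.card X = Nat.card X' := by
  classical
  let _ := Fintype.ofFinite X
  let _ := Fintype.ofFinite X'
  have h1 : ∑ x : X, ∑ w : X', 𝒟.e x w = (Nat.card X' : Qb) := by
    simp [𝒟.sum_e_right]
  have h2 : ∑ x : X, ∑ w : X', 𝒟.e x w = (Nat.card X : Qb) := by
    rw [Finset.sum_comm]
    simp [𝒟.sum_e_left]
  exact_mod_cast h2.symm.trans h1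

theorem pairing_eq_sum [Fintype X] [Fintype X'] (f : X → Qb) (b : X' → Qb) :
    pairing 𝒟.e f b = (Nat.card X : Qb)⁻¹ * ∑ x : X, ∑ w : X', f x * b w * (𝒟.e x w)⁻¹ := by
  obtain rfl : ‹Fintype X› = Fintype.ofFinite X := Subsingleton.elim _ _
  obtain rfl : ‹Fintype X'› = Fintype.ofFinite X' := Subsingleton.elim _ _
  rfl

theorem Fourier_pairing_add_left (f f' : X → Qb) (b : X' → Qb) :
    pairing 𝒟.e (f + f') b = pairing 𝒟.e f b + pairing 𝒟.e f' b := by
  classical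
  let _ := Fintype.ofFinite X
  let _ := Fintype.ofFinite X'
  simp only [𝒟.pairing_eq_sum, Pi.add_apply, Finset.mul_sum, ← Finset.sum_add_distrib]
  refine Finset.sum_congr rfl fun x _ => Finset.sum_congr rfl fun w _ => ?_
  ring

theorem Fourier_pairing_smul_left (z : Qb) (f : X → Qb) (b : X' → Qb) :
    pairing 𝒟.e (z • f) b = z • pairing 𝒟.e f b := by
  classical
  let _ := Fintype.ofFinite X
  let _ := Fintype.ofFinite X'
  simp only [𝒟.pairing_eq_sum, Pi.smul_apply, smul_eq_mul, Finset.mul_sum]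
  refine Finset.sum_congr rfl fun x _ => Finset.sum_congr rfl fun w _ => ?_
  ring

theorem Fourier_pairing_add_right (f : X → Qb) (b b' : X' → Qb) :
    pairing 𝒟.e f (b + b') = pairing 𝒟.e f b + pairing 𝒟.e f b' := by
  classical
  let _ := Fintype.ofFinite X
  let _ := Fintype.ofFinite X'
  simp only [𝒟.pairing_eq_sum, Pi.add_apply, Finset.mul_sum, ← Finset.sum_add_distrib]
  refine Finset.sum_congr rfl fun x _ => Finset.sum_congr rfl fun w _ => ?_
  ring

theorem Fourier_pairing_smul_right (z : Qb) (f : X → Qb) (b : X' → Qb) :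
    pairing 𝒟.e f (z • b) = z • pairing 𝒟.e f b := by
  classical
  let _ := Fintype.ofFinite X
  let _ := Fintype.ofFinite X'
  simp only [𝒟.pairing_eq_sum, Pi.smul_apply, smul_eq_mul, Finset.mul_sum]
  refine Finset.sum_congr rfl fun x _ => Finset.sum_congr rfl fun w _ => ?_
  ring

/-- The pairing as a bilinear map. -/
def pairingL : (X → Qb) →ₗ[Qb] (X' → Qb) →ₗ[Qb] Qb :=
  LinearMap.mk₂ Qb (pairing 𝒟.e)
    (by exact 𝒟.Fourier_pairing_add_left) (by exact 𝒟.Fourier_pairing_smul_left)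
    (by exact 𝒟.Fourier_pairing_add_right) (by exact 𝒟.Fourier_pairing_smul_right)

@[simp] theorem pairingL_apply (f : X → Qb) (b : X' → Qb) : 𝒟.pairingL f b = pairing 𝒟.e f b := rfl

theorem Fourier_card_ne_zero : (Nat.card X : Qb) ≠ 0 :=
  Nat.cast_ne_zero.2 Nat.card_pos.ne'

/-- `⟨f, e(x,·)⟩ = f x`. -/
theorem pairing_e_right (f : X → Qb) (x : X) : pairing 𝒟.e f (fun w => 𝒟.e x w) = f x := by
  classical
  let _ := Fintype.ofFinite X
  let _ := Fintype.ofFinite X'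
  rw [𝒟.pairing_eq_sum]
  have h1 : ∀ x' : X, ∑ w : X', f x' * 𝒟.e x w * (𝒟.e x' w)⁻¹ =
      if x' = x then f x' * (Nat.card X : Qb) else 0 := by
    intro x'
    have h2 : ∑ w : X', f x' * 𝒟.e x w * (𝒟.e x' w)⁻¹ = f x' * ∑ w : X', 𝒟.e (x - x') w := by
      rw [Finset.mul_sum]
      refine Finset.sum_congr rfl fun w _ => ?_
      rw [sub_eq_add_neg, 𝒟.e_add_left, 𝒟.e_neg_left]
      ring
    rw [h2, 𝒟.sum_e_right, 𝒟.card_eq]
    by_cases hx : x' = x
    · rw [if_pos hx, if_pos (by rw [hx, sub_self])]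
    · rw [if_neg hx, if_neg (fun h => hx (sub_eq_zero.1 h).symm), mul_zero]
  simp_rw [h1]
  rw [Finset.sum_ite_eq' Finset.univ x, if_pos (Finset.mem_univ x), mul_comm (f x), ← mul_assoc,
    inv_mul_cancel₀ Fourier_card_ne_zero, one_mul]

/-- `⟨e(·,w), b⟩ = b w`. -/
theorem pairing_e_left (b : X' → Qb) (w : X') : pairing 𝒟.e (fun x => 𝒟.e x w) b = b w := by
  classical
  let _ := Fintype.ofFinite X
  let _ := Fintype.ofFinite X'
  rw [𝒟.pairing_eq_sum, Finset.sum_comm]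
  have h1 : ∀ w' : X', ∑ x : X, 𝒟.e x w * b w' * (𝒟.e x w')⁻¹ =
      if w' = w then b w' * (Nat.card X : Qb) else 0 := by
    intro w'
    have h2 : ∑ x : X, 𝒟.e x w * b w' * (𝒟.e x w')⁻¹ = b w' * ∑ x : X, 𝒟.e x (w - w') := by
      rw [Finset.mul_sum]
      refine Finset.sum_congr rfl fun x _ => ?_
      rw [sub_eq_add_neg, 𝒟.e_add_right, 𝒟.e_neg_right]
      ring
    rw [h2, 𝒟.sum_e_left]
    by_cases hw : w' = w
    · rw [if_pos hw, if_pos (by rw [hw, sub_self])]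
    · rw [if_neg hw, if_neg (fun h => hw (sub_eq_zero.1 h).symm), mul_zero]
  simp_rw [h1]
  rw [Finset.sum_ite_eq' Finset.univ w, if_pos (Finset.mem_univ w), mul_comm (b w), ← mul_assoc,
    inv_mul_cancel₀ Fourier_card_ne_zero, one_mul]

theorem pairing_one_right (f : X → Qb) : pairing 𝒟.e f 1 = f 0 := by
  rw [← 𝒟.pairing_e_right f 0]
  congr 1
  funext w
  rw [𝒟.e_zero_left]
  rfl

theorem pairing_one_left (b : X' → Qb) : pairing 𝒟.e 1 b = b 0 := by
  rw [← 𝒟.pairing_e_left b 0]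
  congr 1
  funext x
  rw [𝒟.e_zero_right]
  rfl

/-- nondegeneracy of the Fourier pairing (the functions `e(x,·)` span `Map(X',Qb)`). -/
theorem pairing_nondeg_left (f : X → Qb) (h : ∀ b, pairing 𝒟.e f b = 0) : f = 0 := by
  funext x
  rw [← 𝒟.pairing_e_right f x, h]; rfl

theorem pairing_nondeg_right (b : X' → Qb) (h : ∀ f, pairing 𝒟.e f b = 0) : b = 0 := by
  funext w
  rw [← 𝒟.pairing_e_left b w, h]; rfl

/-- translation on `X` corresponds to multiplication by `e(c,·)` on `X'`. -/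
theorem pairing_translate (f : X → Qb) (b : X' → Qb) (c : X) :
    pairing 𝒟.e (fun x => f (x + c)) b = pairing 𝒟.e f (fun w => 𝒟.e c w * b w) := by
  classical
  let _ := Fintype.ofFinite X
  let _ := Fintype.ofFinite X'
  rw [𝒟.pairing_eq_sum, 𝒟.pairing_eq_sum]
  congr 1
  rw [← Equiv.sum_comp (Equiv.addRight c)
    (fun x => ∑ w : X', f x * (𝒟.e c w * b w) * (𝒟.e x w)⁻¹)]
  refine Finset.sum_congr rfl fun x _ => Finset.sum_congr rfl fun w _ => ?_
  rw [Equiv.coe_addRight, 𝒟.e_add_left, mul_inv]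
  have h1 := 𝒟.e_ne_zero c w
  field_simp

/-- (aux) Fourier inversion: every function on `X'` is a combination of the `e(x,·)`. -/
theorem Fourier_expand [Fintype X] (b : X' → Qb) :
    ∃ β : X → Qb, b = ∑ x : X, β x • (fun w => 𝒟.e x w) := by
  classical
  let _ := Fintype.ofFinite X'
  refine ⟨fun x => (Nat.card X : Qb)⁻¹ * ∑ w' : X', b w' * (𝒟.e x w')⁻¹, ?_⟩
  funext w
  conv_lhs => rw [← 𝒟.pairing_e_left b w, 𝒟.pairing_eq_sum]
  rw [Finset.sum_apply, Finset.mul_sum]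
  refine Finset.sum_congr rfl fun x _ => ?_
  rw [Pi.smul_apply, smul_eq_mul, mul_assoc, Finset.sum_mul]
  congr 1
  refine Finset.sum_congr rfl fun w' _ => ?_
  ring

/-- (aux) -/
theorem Fourier_pairing_sum [Fintype X] (f : X → Qb) (β : X → Qb) :
    pairing 𝒟.e f (∑ x : X, β x • (fun w => 𝒟.e x w)) = ∑ x : X, β x * f x := by
  rw [← 𝒟.pairingL_apply, map_sum]
  refine Finset.sum_congr rfl fun x _ => ?_
  rw [map_smul, 𝒟.pairingL_apply, 𝒟.pairing_e_right, smul_eq_mul]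

/-- products on `X'` correspond to "comultiplication" on `X`:
if `f (x + y) = ∑ i, f₁ i x * f₂ i y` then `⟨f, b b'⟩ = ∑ i ⟨f₁ i, b⟩ ⟨f₂ i, b'⟩`. -/
theorem pairing_mul_right {ι : Type} [Fintype ι] (f : X → Qb) (f₁ f₂ : ι → X → Qb)
    (hf : ∀ x y, f (x + y) = ∑ i, f₁ i x * f₂ i y) (b b' : X' → Qb) :
    pairing 𝒟.e f (b * b') = ∑ i, pairing 𝒟.e (f₁ i) b * pairing 𝒟.e (f₂ i) b' := by
  classical
  let _ := Fintype.ofFinite X
  obtain ⟨β, rfl⟩ := 𝒟.Fourier_expand b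
  obtain ⟨β', rfl⟩ := 𝒟.Fourier_expand b'
  have hbb : (∑ x : X, β x • (fun w => 𝒟.e x w)) * (∑ y : X, β' y • (fun w => 𝒟.e y w)) =
      ∑ x : X, ∑ y : X, (β x * β' y) • (fun w => 𝒟.e (x + y) w) := by
    funext w
    simp only [Pi.mul_apply, Finset.sum_apply, Pi.smul_apply, smul_eq_mul]
    rw [Finset.sum_mul_sum]
    refine Finset.sum_congr rfl fun x _ => Finset.sum_congr rfl fun y _ => ?_
    rw [𝒟.e_add_left]
    ring
  have hL : pairing 𝒟.e f (∑ x : X, ∑ y : X, (β x * β' y) • (fun w => 𝒟.e (x + y) w)) =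
      ∑ x : X, ∑ y : X, (β x * β' y) * f (x + y) := by
    rw [← 𝒟.pairingL_apply, map_sum]
    refine Finset.sum_congr rfl fun x _ => ?_
    rw [map_sum]
    refine Finset.sum_congr rfl fun y _ => ?_
    rw [map_smul, 𝒟.pairingL_apply, 𝒟.pairing_e_right, smul_eq_mul]
  rw [hbb, hL]
  simp_rw [𝒟.Fourier_pairing_sum, Finset.sum_mul_sum]
  conv_rhs => rw [Finset.sum_comm]
  refine Finset.sum_congr rfl fun x _ => ?_
  rw [Finset.sum_comm]
  refine Finset.sum_congr rfl fun y _ => ?_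
  rw [hf, Finset.mul_sum]
  refine Finset.sum_congr rfl fun i _ => ?_
  ring

/-- `act γ` is bijective. -/
theorem act_bijective (γ : Γ) : Function.Bijective (𝒟.act γ) := by
  apply Finite.injective_iff_bijective.1
  rw [injective_iff_map_eq_zero]
  intro x hx
  apply 𝒟.nondeg_left
  intro w
  have h1 := 𝒟.e_act γ x w
  rw [hx, 𝒟.e_zero_left] at h1
  have h2 : (γ : GQ) (𝒟.e x w) = (γ : GQ) 1 := by rw [← h1, map_one]
  exact (γ : GQ).injective h2

theorem act'_bijective (γ : Γ) : Function.Bijective (𝒟.act' γ) := by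
  apply Finite.injective_iff_bijective.1
  rw [injective_iff_map_eq_zero]
  intro w hw
  apply 𝒟.nondeg_right
  intro x
  have h1 := 𝒟.e_act γ x w
  rw [hw, 𝒟.e_zero_right] at h1
  have h2 : (γ : GQ) (𝒟.e x w) = (γ : GQ) 1 := by rw [← h1, map_one]
  exact (γ : GQ).injective h2

/-- more generally `γ ⟨f,b⟩ = ⟨γ∘f∘γ⁻¹, γ∘b∘γ⁻¹⟩`, in the form: -/
theorem pairing_conj (f f₁ : X → Qb) (b b₁ : X' → Qb) (γ : Γ)
    (hf : ∀ x, f₁ (𝒟.act γ x) = (γ : GQ) (f x)) (hb : ∀ w, b₁ (𝒟.act' γ w) = (γ : GQ) (b w)) :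
    (γ : GQ) (pairing 𝒟.e f b) = pairing 𝒟.e f₁ b₁ := by
  classical
  let _ := Fintype.ofFinite X
  let _ := Fintype.ofFinite X'
  rw [𝒟.pairing_eq_sum, 𝒟.pairing_eq_sum, map_mul, map_inv₀, map_natCast, map_sum]
  congr 1
  rw [← (𝒟.act_bijective γ).sum_comp (fun x => ∑ w : X', f₁ x * b₁ w * (𝒟.e x w)⁻¹)]
  refine Finset.sum_congr rfl fun x _ => ?_
  rw [map_sum, ← (𝒟.act'_bijective γ).sum_comp
    (fun w => f₁ (𝒟.act γ x) * b₁ w * (𝒟.e (𝒟.act γ x) w)⁻¹)]
  refine Finset.sum_congr rfl fun w _ => ?_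
  rw [map_mul, map_mul, map_inv₀, hf, hb, 𝒟.e_act]

/-- Galois equivariance of the pairing. -/
theorem pairing_equi (f : X → Qb) (b : X' → Qb) (hf : Equi 𝒟.act f) (hb : Equi 𝒟.act' b) (γ : Γ) :
    (γ : GQ) (pairing 𝒟.e f b) = pairing 𝒟.e f b :=
  𝒟.pairing_conj f f b b γ (hf γ) (hb γ)

/-- (aux) `∑_{c ∈ C} e(c,w) = #C` if `w ∈ C^⊥`, `0` otherwise. -/
theorem Fourier_sum_sub (C : AddSubgroup X) [Fintype C] [DecidablePred (· ∈ 𝒟.perp C)] (w : X') :
    ∑ c : C, 𝒟.e (c : X) w = if w ∈ 𝒟.perp C then (Nat.card C : Qb) else 0 := by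
  split_ifs with hw
  · have h1 : ∀ c : C, 𝒟.e (c : X) w = 1 := fun c => hw c c.2
    simp only [h1]
    rw [Finset.sum_const, Finset.card_univ, nsmul_eq_mul, mul_one, Nat.card_eq_fintype_card]
  · have h1 : ∃ c : C, 𝒟.e (c : X) w ≠ 1 := by
      by_contra hcon
      push Not at hcon
      exact hw fun x hx => hcon ⟨x, hx⟩
    obtain ⟨c₀, hc₀⟩ := h1
    exact Fourier_sum_char (fun c : C => 𝒟.e (c : X) w)
      (fun a b => by rw [AddSubgroup.coe_add, 𝒟.e_add_left]) c₀ hc₀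

/-- double orthogonal -/
theorem mem_of_forall_perp (C : AddSubgroup X) (x : X) (h : ∀ w ∈ 𝒟.perp C, 𝒟.e x w = 1) : x ∈ C := by
  classical
  let _ := Fintype.ofFinite X
  let _ := Fintype.ofFinite X'
  by_contra hx
  have h1 : ∑ w : X', ∑ c : C, 𝒟.e (x + c) w = 0 := by
    rw [Finset.sum_comm]
    apply Finset.sum_eq_zero
    intro c _
    rw [𝒟.sum_e_right, if_neg]
    intro h0
    apply hx
    rw [eq_neg_of_add_eq_zero_left h0]
    exact C.neg_mem c.2
  have h2 : ∑ w : X', ∑ c : C, 𝒟.e (x + c) w = (Nat.card (𝒟.perp C) : Qb) * (Nat.card C : Qb) := by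
    rw [← Fourier_sum_ite_mem]
    refine Finset.sum_congr rfl fun w _ => ?_
    simp_rw [𝒟.e_add_left]
    rw [← Finset.mul_sum, 𝒟.Fourier_sum_sub]
    split_ifs with hw
    · rw [h w hw, one_mul]
    · rw [mul_zero]
  rw [h1] at h2
  have h3 : (Nat.card (𝒟.perp C) : Qb) ≠ 0 := Nat.cast_ne_zero.2 Nat.card_pos.ne'
  have h4 : (Nat.card C : Qb) ≠ 0 := Nat.cast_ne_zero.2 Nat.card_pos.ne'
  exact mul_ne_zero h3 h4 h2.symm

/-- `∑_{w ∈ w₀ + C^⊥} e(x,w)⁻¹ = #C^⊥ e(x,w₀)⁻¹` if `x ∈ C`, `0` otherwise; cardinalities: `#C * #C^⊥ = #X`. -/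
theorem card_mul_card_perp (C : AddSubgroup X) : Nat.card C * Nat.card (𝒟.perp C) = Nat.card X := by
  classical
  let _ := Fintype.ofFinite X
  let _ := Fintype.ofFinite X'
  have h1 : ∑ w : X', ∑ c : C, 𝒟.e (c : X) w = (Nat.card X' : Qb) := by
    rw [Finset.sum_comm]
    simp_rw [𝒟.sum_e_right]
    rw [Finset.sum_eq_single (0 : C)]
    · rw [if_pos (ZeroMemClass.coe_zero C)]
    · intro c _ hc
      rw [if_neg]
      intro h0
      exact hc (Subtype.ext h0)
    · intro h0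
      exact absurd (Finset.mem_univ _) h0
  have h2 : ∑ w : X', ∑ c : C, 𝒟.e (c : X) w = (Nat.card (𝒟.perp C) : Qb) * (Nat.card C : Qb) := by
    rw [← Fourier_sum_ite_mem]
    refine Finset.sum_congr rfl fun w _ => ?_
    rw [𝒟.Fourier_sum_sub]
  rw [h1] at h2
  rw [𝒟.card_eq, mul_comm]
  exact_mod_cast h2.symm

end PerfPair

namespace DualPair

variable {P : Plc} {Γ : Subgroup GQ} {X X' : Type} [AddCommGroup X] [AddCommGroup X']
  [Finite X] [Finite X'] (𝒟 : DualPair P Γ X X')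

/-- (aux) the equivariant functions separate the points. -/
theorem Fourier_eq_of_equi (p p' : X) (h : ∀ f, Equi 𝒟.act f → f p = f p') : p = p' := by
  classical
  obtain ⟨ι, _, f, hf, -, hspan, -⟩ := 𝒟.basis_H
  let Lm : (X → Qb) →ₗ[Qb] Qb :=
    (LinearMap.proj p : (X → Qb) →ₗ[Qb] Qb) - (LinearMap.proj p' : (X → Qb) →ₗ[Qb] Qb)
  have h1 : Submodule.span Qb (Set.range f) ≤ LinearMap.ker Lm := by
    rw [Submodule.span_le]
    rintro _ ⟨i, rfl⟩
    change Lm (f i) = 0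
    simp only [Lm, LinearMap.sub_apply, LinearMap.proj_apply]
    rw [h (f i) (hf i), sub_self]
  rw [hspan] at h1
  have h2 : Lm (Pi.single p 1) = 0 := h1 Submodule.mem_top
  simp only [Lm, LinearMap.sub_apply, LinearMap.proj_apply, Pi.single_eq_same] at h2
  by_contra hne
  rw [Pi.single_eq_of_ne (fun h' => hne h'.symm), sub_zero] at h2
  exact one_ne_zero h2

/-- the action is a group action (the equivariant functions separate points). -/
theorem act_mul (γ γ' : Γ) (x : X) : 𝒟.act (γ * γ') x = 𝒟.act γ (𝒟.act γ' x) := by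
  apply 𝒟.Fourier_eq_of_equi
  intro f hf
  rw [hf, hf, hf]
  rfl

theorem act_one (x : X) : 𝒟.act 1 x = x := by
  apply 𝒟.Fourier_eq_of_equi
  intro f hf
  rw [hf]
  rfl

end DualPair

end Fermat.Agent.S56.F

end
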