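/-
S56 block (F), F-A ORDERS: swap, restriction of the group, integrality, group-like elements, the invariant `Sge`.
A2, A4 of the blueprint (report 279).
-/
import Fermat.Agent.S56.F.Order.Fourier

set_option autoImplicit false

open Fermat.Agent.PT.Local

noncomputable section

namespace Fermat.Agent.S56.F

theorem Dv.trans {P : Plc} {a b c : Qb} (h : Dv P a b) (h' : Dv P b c) : Dv P a c := le_trans h' h

theorem Dv.refl (P : Plc) (a : Qb) : Dv P a a := le_refl _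

theorem dv_iff_exists (P : Plc) {a : Qb} (ha : a ≠ 0) (b : Qb) : Dv P a b ↔ ∃ c ∈ P.A, b = a * c := by
  have hva : 0 < P.v a := zero_lt_iff.mpr ((Valuation.ne_zero_iff _).mpr ha)
  constructor
  · intro h
    refine ⟨b / a, ?_, by field_simp⟩
    rw [← ValuationSubring.valuation_le_one_iff, map_div₀, div_le_one₀ hva]
    exact h
  · rintro ⟨c, hc, rfl⟩
    rw [← ValuationSubring.valuation_le_one_iff] at hc
    change P.v (a * c) ≤ P.v a
    rw [map_mul]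
    exact mul_le_of_le_one_right' hc

theorem Dv.add {P : Plc} {a b c : Qb} (h : Dv P a b) (h' : Dv P a c) : Dv P a (b + c) := by
  exact le_trans (Valuation.map_add _ _ _) (max_le h h')

theorem Dv.sub {P : Plc} {a b c : Qb} (h : Dv P a b) (h' : Dv P a c) : Dv P a (b - c) := by
  exact le_trans (Valuation.map_sub _ _ _) (max_le h h')

theorem Dv.mul_left {P : Plc} {a b : Qb} (h : Dv P a b) {c : Qb} (hc : c ∈ P.A) : Dv P a (c * b) := by
  rw [← ValuationSubring.valuation_le_one_iff] at hc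
  change P.v (c * b) ≤ P.v a
  rw [map_mul]
  exact le_trans (mul_le_of_le_one_left' hc) h

theorem Dv.mul {P : Plc} {a b a' b' : Qb} (h : Dv P a b) (h' : Dv P a' b') : Dv P (a * a') (b * b') := by
  change P.v (b * b') ≤ P.v (a * a')
  rw [map_mul, map_mul]
  exact mul_le_mul' h h'

/-- `η - 1` divides `ζ - 1` for `η ≠ 1`, `ζ` two `ℓ`-th roots of unity. -/
theorem Basic_dv_zeta (P : Plc) {η ζ : Qb} (hη : η ^ P.ℓ = 1) (hη1 : η ≠ 1) (hζ : ζ ^ P.ℓ = 1) :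
    Dv P (η - 1) (ζ - 1) := by
  have : Fact P.ℓ.Prime := ⟨P.prime⟩
  have : NeZero P.ℓ := ⟨P.prime.ne_zero⟩
  have hprim : IsPrimitiveRoot η P.ℓ := by
    have h1 := IsPrimitiveRoot.orderOf η
    rwa [orderOf_eq_prime hη hη1] at h1
  obtain ⟨i, -, rfl⟩ := hprim.eq_pow_of_pow_eq_one hζ
  have hv : P.v η = 1 := by
    have h1 : P.v η ^ P.ℓ = 1 := by rw [← map_pow, hη, map_one]
    exact (pow_eq_one_iff.mp h1).resolve_right P.prime.ne_zero
  have hmem : η ∈ P.A := (ValuationSubring.valuation_le_one_iff _ _).mp hv.le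
  have hsum : ∑ j ∈ Finset.range i, η ^ j ∈ P.A :=
    sum_mem fun j _ => pow_mem hmem j
  rw [← geom_sum_mul]
  exact Dv.mul_left (Dv.refl P _) hsum

namespace DualPair

variable {P : Plc} {Γ : Subgroup GQ} {X X' : Type} [AddCommGroup X] [AddCommGroup X']
  [Finite X] [Finite X']

theorem Basic_card_eq (𝒟 : PerfPair Γ X X') : Nat.card X = Nat.card X' := by
  classical
  let _ := Fintype.ofFinite X
  let _ := Fintype.ofFinite X'
  have h1 : ∑ x : X, ∑ w : X', 𝒟.e x w = (Nat.card X' : Qb) := by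
    simp_rw [𝒟.sum_e_right]
    simp
  have h2 : ∑ x : X, ∑ w : X', 𝒟.e x w = (Nat.card X : Qb) := by
    rw [Finset.sum_comm]
    simp_rw [𝒟.sum_e_left]
    simp
  exact_mod_cast h2.symm.trans h1

theorem pairing_swap (𝒟 : PerfPair Γ X X') (f : X → Qb) (b : X' → Qb) :
    pairing 𝒟.swap.e b f = pairing 𝒟.e f b := by
  unfold pairing
  rw [Basic_card_eq 𝒟]
  congr 1
  rw [Finset.sum_comm]
  refine Finset.sum_congr rfl fun x _ => Finset.sum_congr rfl fun w _ => ?_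
  rw [mul_comm (b w)]
  rfl

/-- The dual pair with the roles of `X` and `X'` exchanged. -/
def swap (𝒟 : DualPair P Γ X X') : DualPair P Γ X' X where
  toPerfPair := 𝒟.toPerfPair.swap
  H := 𝒟.B
  B := 𝒟.H
  one_mem_H := 𝒟.one_mem_B
  mul_mem_H := 𝒟.mul_mem_B
  one_mem_B := 𝒟.one_mem_H
  mul_mem_B := 𝒟.mul_mem_H
  basis_H := 𝒟.basis_B
  basis_B := 𝒟.basis_H
  mem_B_iff := fun f => by
    rw [𝒟.mem_H_iff]
    exact forall₂_congr fun b _ => by rw [pairing_swap]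
  mem_H_iff := fun b => by
    rw [𝒟.mem_B_iff]
    exact forall₂_congr fun f _ => by rw [pairing_swap]

@[simp] theorem swap_Sge (𝒟 : DualPair P Γ X X') (w : X') (a : Qb) : 𝒟.swap.Sge w a ↔ 𝒟.Sge' w a := Iff.rfl
@[simp] theorem swap_Sge' (𝒟 : DualPair P Γ X X') (x : X) (a : Qb) : 𝒟.swap.Sge' x a ↔ 𝒟.Sge x a := Iff.rfl

/-- **A2.** Restriction of the acting group. -/
def restrict (𝒟 : DualPair P Γ X X') {Γ' : Subgroup GQ} (h : Γ' ≤ Γ) : DualPair P Γ' X X' where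
  act := fun γ => 𝒟.act ⟨γ.1, h γ.2⟩
  act' := fun γ => 𝒟.act' ⟨γ.1, h γ.2⟩
  e := 𝒟.e
  e_ne_zero := 𝒟.e_ne_zero
  e_add_left := 𝒟.e_add_left
  e_add_right := 𝒟.e_add_right
  nondeg_left := 𝒟.nondeg_left
  nondeg_right := 𝒟.nondeg_right
  e_act := fun γ x w => 𝒟.e_act ⟨γ.1, h γ.2⟩ x w
  H := 𝒟.H
  B := 𝒟.B
  one_mem_H := 𝒟.one_mem_H
  mul_mem_H := 𝒟.mul_mem_H
  one_mem_B := 𝒟.one_mem_B
  mul_mem_B := 𝒟.mul_mem_B
  basis_H := by
    obtain ⟨ι, i, f, h1, h2, h3, h4⟩ := 𝒟.basis_H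
    exact ⟨ι, i, f, fun j γ x => h1 j ⟨γ.1, h γ.2⟩ x, h2, h3, h4⟩
  basis_B := by
    obtain ⟨ι, i, f, h1, h2, h3, h4⟩ := 𝒟.basis_B
    exact ⟨ι, i, f, fun j γ x => h1 j ⟨γ.1, h γ.2⟩ x, h2, h3, h4⟩
  mem_B_iff := 𝒟.mem_B_iff
  mem_H_iff := 𝒟.mem_H_iff

@[simp] theorem restrict_Sge (𝒟 : DualPair P Γ X X') {Γ' : Subgroup GQ} (h : Γ' ≤ Γ) (x : X) (a : Qb) :
    (𝒟.restrict h).Sge x a ↔ 𝒟.Sge x a := Iff.rfl

variable (𝒟 : DualPair P Γ X X')

/-- The values of the functions of the order are integral.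
PROOF: `H` is a subring of `Map(X,Qb)` which is a finitely generated `O`-module, so `f` is integral over `O`, so is `f x`;
`O` is integrally closed (`ValuationSubring`/`IsIntegrallyClosed`). -/
theorem apply_mem {f : X → Qb} (hf : f ∈ 𝒟.H) (x : X) : f x ∈ P.A := by
  -- the subalgebra with underlying module `H`
  let S : Subalgebra P.A (X → Qb) :=
    { carrier := 𝒟.H
      mul_mem' := fun {a b} ha hb => 𝒟.mul_mem_H a ha b hb
      add_mem' := fun {a b} ha hb => 𝒟.H.add_mem ha hb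
      algebraMap_mem' := fun r => by
        have h := 𝒟.H.smul_mem r 𝒟.one_mem_H
        rwa [Algebra.smul_def, mul_one] at h }
  have hS : Subalgebra.toSubmodule S = 𝒟.H := rfl
  have hfg : (Subalgebra.toSubmodule S).FG := by
    rw [hS]
    obtain ⟨ι, i, g, -, -, -, h4⟩ := 𝒟.basis_H
    rw [h4]
    exact Submodule.fg_span (Set.finite_range g)
  have hint : IsIntegral P.A f := IsIntegral.of_mem_of_fg S hfg f hf
  have hint2 : IsIntegral P.A (f x) := by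
    have := hint.map (Pi.evalAlgHom P.A (fun _ : X => Qb) x)
    exact this
  obtain ⟨y, hy⟩ := (IsIntegrallyClosed.isIntegral_iff (R := P.A) (K := Qb)).mp hint2
  rw [← hy]
  exact y.2

/-- group-like elements: `g_x = e(x,·) ∈ B`. -/
theorem e_mem_B (x : X) : (fun w => 𝒟.e x w) ∈ 𝒟.B := by
  rw [𝒟.mem_B_iff]
  intro f hf
  rw [𝒟.pairing_e_right]
  exact 𝒟.apply_mem hf x

theorem e_mem_H (w : X') : (fun x => 𝒟.e x w) ∈ 𝒟.H := 𝒟.swap.e_mem_B w

/-- translations preserve the order (`⟨τ_c f, b⟩ = ⟨f, g_c b⟩`). -/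
theorem translate_mem {f : X → Qb} (hf : f ∈ 𝒟.H) (c : X) : (fun x => f (x + c)) ∈ 𝒟.H := by
  rw [𝒟.mem_H_iff]
  intro b hb
  rw [𝒟.pairing_translate]
  exact (𝒟.mem_H_iff f).mp hf _ (𝒟.mul_mem_B _ (𝒟.e_mem_B c) _ hb)

/-- **A9 (norm).** -/
theorem prod_translate_mem {f : X → Qb} (hf : f ∈ 𝒟.H) (s : Finset X) :
    (fun x => ∏ c ∈ s, f (x + c)) ∈ 𝒟.H := by
  classical
  induction s using Finset.induction_on with
  | empty =>
    simp only [Finset.prod_empty]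
    exact 𝒟.one_mem_H
  | insert c s hc ih =>
    have h := 𝒟.mul_mem_H _ (𝒟.translate_mem hf c) _ ih
    have h2 : (fun x => ∏ c ∈ insert c s, f (x + c)) =
        (fun x => f (x + c)) * (fun x => ∏ c ∈ s, f (x + c)) := by
      funext x
      rw [Finset.prod_insert hc]
      rfl
    rw [h2]
    exact h

/-- `Sge x a ↔ g_x - 1 ∈ a B`. -/
theorem sge_iff {a : Qb} (ha : a ≠ 0) (x : X) :
    𝒟.Sge x a ↔ ∃ b ∈ 𝒟.B, ∀ w, 𝒟.e x w - 1 = a * b w := by
  have key : ∀ (f : X → Qb) (b : X' → Qb), (∀ w, 𝒟.e x w - 1 = a * b w) →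
      f x - f 0 = a * pairing 𝒟.e f b := by
    intro f b hb
    have h1 : (fun w => 𝒟.e x w) - 1 = a • b := by
      funext w
      exact hb w
    have h2 : 𝒟.pairingL f ((fun w => 𝒟.e x w) - 1) = 𝒟.pairingL f (a • b) := by rw [h1]
    rw [map_sub, map_smul, PerfPair.pairingL_apply, PerfPair.pairingL_apply,
      PerfPair.pairingL_apply, PerfPair.pairing_e_right, PerfPair.pairing_one_right,
      smul_eq_mul] at h2
    exact h2
  constructor
  · intro h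
    refine ⟨fun w => a⁻¹ * (𝒟.e x w - 1), ?_, fun w => by field_simp⟩
    rw [𝒟.mem_B_iff]
    intro f hf
    obtain ⟨c, hc, hc2⟩ := (dv_iff_exists P ha _).mp (h f hf)
    have h3 := key f (fun w => a⁻¹ * (𝒟.e x w - 1)) (fun w => by field_simp)
    rw [hc2] at h3
    rw [← mul_left_cancel₀ ha h3]
    exact hc
  · rintro ⟨b, hb, hb2⟩ f hf
    rw [dv_iff_exists P ha]
    exact ⟨_, (𝒟.mem_B_iff b).mp hb f hf, key f b hb2⟩

/-- **A4 (S).**  `g_x - g_y = g_y (g_{x-y} - 1)` and `g_y` is a unit of the ring `B`. -/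
theorem sge_sub_iff (x y : X) (a : Qb) : 𝒟.Sge (x - y) a ↔ ∀ f ∈ 𝒟.H, Dv P a (f x - f y) := by
  constructor
  · intro h f hf
    have h1 := h _ (𝒟.translate_mem hf y)
    simpa using h1
  · intro h f hf
    have h1 := h _ (𝒟.translate_mem hf (-y))
    simpa [sub_eq_add_neg] using h1

theorem sge_zero (a : Qb) : 𝒟.Sge 0 a := by
  intro f _
  simp [Dv]

theorem Sge.add {x y : X} {a : Qb} (hx : 𝒟.Sge x a) (hy : 𝒟.Sge y a) : 𝒟.Sge (x + y) a := by
  intro f hf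
  have h1 : Dv P a (f (x + y) - f y) :=
    (𝒟.sge_sub_iff (x + y) y a).mp (by rwa [add_sub_cancel_right]) f hf
  have h2 := Dv.add h1 (hy f hf)
  rwa [sub_add_sub_cancel] at h2

theorem Sge.neg {x : X} {a : Qb} (hx : 𝒟.Sge x a) : 𝒟.Sge (-x) a := by
  have h1 : 𝒟.Sge (0 - x) a := by
    rw [𝒟.sge_sub_iff]
    intro f hf
    have h2 := hx f hf
    unfold Dv at h2 ⊢
    rwa [← neg_sub, Valuation.map_neg]
  rwa [zero_sub] at h1

theorem Sge.mono {x : X} {a b : Qb} (hx : 𝒟.Sge x a) (hab : Dv P b a) : 𝒟.Sge x b :=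
  fun f hf => Dv.trans hab (hx f hf)

/-- refined additivity: `g_{x+y} - 1 = (g_x - 1) + (g_y - 1) + (g_x - 1)(g_y - 1)`. -/
theorem sge_add_sub {x y : X} {a : Qb} (hx : 𝒟.Sge x a) (hy : 𝒟.Sge y a) {f : X → Qb} (hf : f ∈ 𝒟.H) :
    Dv P (a * a) (f (x + y) - f x - f y + f 0) := by
  rcases eq_or_ne a 0 with rfl | ha
  · have h0 : ∀ {b : Qb}, Dv P 0 b → b = 0 := by
      intro b hb
      unfold Dv at hb
      rw [map_zero, le_zero_iff, map_eq_zero] at hb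
      exact hb
    have h1 := h0 (hx f hf)
    have h2 := h0 (hy f hf)
    have h3 := h0 (Sge.add 𝒟 hx hy f hf)
    have h4 : f (x + y) - f x - f y + f 0 = 0 := by linear_combination h3 - h1 - h2
    rw [h4]
    simp [Dv]
  · obtain ⟨b, hb, hbx⟩ := (𝒟.sge_iff ha x).mp hx
    obtain ⟨b', hb', hby⟩ := (𝒟.sge_iff ha y).mp hy
    rw [dv_iff_exists P (mul_ne_zero ha ha)]
    refine ⟨pairing 𝒟.e f (b * b'), (𝒟.mem_B_iff _).mp (𝒟.mul_mem_B b hb b' hb') f hf, ?_⟩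
    have hfun : (fun w => 𝒟.e (x + y) w) - (fun w => 𝒟.e x w) - (fun w => 𝒟.e y w) + 1
        = (a * a) • (b * b') := by
      funext w
      simp only [Pi.add_apply, Pi.sub_apply, Pi.one_apply, Pi.smul_apply, Pi.mul_apply, smul_eq_mul]
      rw [𝒟.e_add_left]
      linear_combination (𝒟.e y w - 1) * hbx w + a * b w * hby w
    have h1 := congrArg (𝒟.pairingL f) hfun
    simp only [map_add, map_sub, map_smul, PerfPair.pairingL_apply, smul_eq_mul] at h1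
    rw [𝒟.pairing_e_right, 𝒟.pairing_e_right, 𝒟.pairing_e_right, 𝒟.pairing_one_right] at h1
    exact h1

/-- `Sge` is invariant under the action (needs `Γ ≤ D`). -/
theorem Sge.act (hΓ : Γ ≤ P.dec) {x : X} {a : Qb} (hx : 𝒟.Sge x a) (γ : Γ) : 𝒟.Sge (𝒟.act γ x) a := by
  obtain ⟨ι, _, φ, hφ, -, -, hH⟩ := 𝒟.basis_H
  intro f hf
  rw [hH] at hf
  induction hf using Submodule.span_induction with
  | mem g hg =>
    obtain ⟨i, rfl⟩ := hg
    have hmem : φ i ∈ 𝒟.H := by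
      rw [hH]
      exact Submodule.subset_span ⟨i, rfl⟩
    have h1 := hx _ hmem
    have h2 : φ i (𝒟.act γ x) - φ i 0 = (γ : GQ) (φ i x - φ i 0) := by
      rw [map_sub, ← hφ i γ x, ← hφ i γ 0, map_zero]
    unfold Dv at h1 ⊢
    rw [h2, v_map P (hΓ γ.2)]
    exact h1
  | zero => simp [Dv]
  | add g g' _ _ hg hg' =>
    have h1 := Dv.add hg hg'
    have h2 : (g + g') (𝒟.act γ x) - (g + g') 0
        = g (𝒟.act γ x) - g 0 + (g' (𝒟.act γ x) - g' 0) := by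
      simp only [Pi.add_apply]; ring
    rwa [h2]
  | smul c g _ hg =>
    have h1 := Dv.mul_left hg c.2
    have h2 : (c • g) (𝒟.act γ x) - (c • g) 0 = (c : Qb) * (g (𝒟.act γ x) - g 0) := by
      have h3 : ∀ z : Qb, c • z = (c : Qb) * z := fun z => rfl
      simp only [Pi.smul_apply, h3]; ring
    rwa [h2]

/-- The subgroup `{x | s(x) ≥ v(a)}`. -/
def level (a : Qb) : AddSubgroup X where
  carrier := {x | 𝒟.Sge x a}
  zero_mem' := 𝒟.sge_zero a
  add_mem' := fun hx hy => Sge.add 𝒟 hx hy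
  neg_mem' := fun hx => Sge.neg 𝒟 hx

/-- The connected part `X⁰ = {x | s(x) > 0}`. -/
def conn : AddSubgroup X where
  carrier := {x | 𝒟.Conn x}
  zero_mem' := ⟨0, by simp [InM], 𝒟.sge_zero 0⟩
  add_mem' := by
    rintro x y ⟨a, ha, hx⟩ ⟨b, hb, hy⟩
    rcases le_total (P.v a) (P.v b) with h | h
    · exact ⟨b, hb, Sge.add 𝒟 (Sge.mono 𝒟 hx h) hy⟩
    · exact ⟨a, ha, Sge.add 𝒟 hx (Sge.mono 𝒟 hy h)⟩
  neg_mem' := fun ⟨a, ha, hx⟩ => ⟨a, ha, Sge.neg 𝒟 hx⟩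

theorem stable_conn (hΓ : Γ ≤ P.dec) : 𝒟.Stable 𝒟.conn :=
  fun γ _ ⟨a, ha, hx⟩ => ⟨a, ha, Sge.act 𝒟 hΓ hx γ⟩

/-- **(F2).**  `X` killed by `p`, `x ≠ 0`, `ζ ≠ 1` a `p`-th root of unity: `Sge x a → a ∣ ζ - 1`.
PROOF: choose `w` with `e(x,w) ≠ 1`; it is a primitive `p`-th root of unity, `v(e(x,w) - 1) = v(ζ - 1)`; apply the definition of
`Sge` to `f = e(·,w) ∈ H`. -/
theorem sge_dv_zeta (hpX : ∀ x : X, P.ℓ • x = 0) {x : X} (hx : x ≠ 0) {a : Qb} (h : 𝒟.Sge x a)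
    {ζ : Qb} (hζ : ζ ^ P.ℓ = 1) (hζ1 : ζ ≠ 1) : Dv P a (ζ - 1) := by
  obtain ⟨w, hw⟩ : ∃ w, 𝒟.e x w ≠ 1 := by
    by_contra hcon
    push Not at hcon
    exact hx (𝒟.nondeg_left x hcon)
  have h1 : 𝒟.e x w ^ P.ℓ = 1 := by
    rw [← 𝒟.e_nsmul_left, hpX, 𝒟.e_zero_left]
  have h2 := h _ (𝒟.e_mem_H w)
  simp only [𝒟.e_zero_left] at h2
  exact Dv.trans h2 (Basic_dv_zeta P h1 hw hζ)

/-- **(PI) pairing inequality.** -/
theorem sge_mul_dv_zeta (hpX : ∀ x : X, P.ℓ • x = 0) {x : X} {w : X'} (hxw : 𝒟.e x w ≠ 1) {a b : Qb}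
    (h : 𝒟.Sge x a) (h' : 𝒟.Sge' w b) {ζ : Qb} (hζ : ζ ^ P.ℓ = 1) (hζ1 : ζ ≠ 1) : Dv P (a * b) (ζ - 1) := by
  have h1 : 𝒟.e x w ^ P.ℓ = 1 := by
    rw [← 𝒟.e_nsmul_left, hpX, 𝒟.e_zero_left]
  refine Dv.trans ?_ (Basic_dv_zeta P h1 hxw hζ)
  have ha : a ≠ 0 := by
    rintro rfl
    have h2 := h _ (𝒟.e_mem_H w)
    simp only [𝒟.e_zero_left] at h2
    unfold Dv at h2
    rw [map_zero, le_zero_iff, map_eq_zero, sub_eq_zero] at h2
    exact hxw h2
  obtain ⟨β, hβ, hβx⟩ := (𝒟.sge_iff ha x).mp h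
  have h3 := h' β hβ
  have h4 : β 0 = 0 := by
    have h5 := hβx 0
    rw [𝒟.e_zero_right, sub_self] at h5
    exact (mul_eq_zero.mp h5.symm).resolve_left ha
  rw [h4, sub_zero] at h3
  rw [hβx w]
  exact Dv.mul (Dv.refl P a) h3

end DualPair

end Fermat.Agent.S56.F

end
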