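/-
S56 block (F), F-A ORDERS, A0: linear algebra over valuation rings and Galois descent.  (Blueprint: report 279.)
-/
import Fermat.Agent.S56.F.Order.Defs

set_option autoImplicit false

open Fermat.Agent.PT.Local

noncomputable section

namespace Fermat.Agent.S56.F

/-- **A0a (VR-basis).**  Finitely many vectors of a vector space over the fraction field `F` of a valuation ring `A`:
the `A`-span is generated by an `F`-linearly independent subfamily.
PROOF: induction on `#s`.  If `s` is dependent, `∑ a_i s_i = 0`, divide by the coefficient `a_j` of largest valuation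
(for all `i`: `a_i / a_j ∈ A`, `ValuationRing` / `ValuationSubring.mem_or_inv_mem`): `s_j` lies in the `A`-span of the others. -/
theorem exists_linearIndependent_subset_span_eq {F W : Type*} [Field F] [AddCommGroup W] [Module F W]
    (A : ValuationSubring F) [Module A W] [IsScalarTower A F W] (s : Finset W) :
    ∃ t : Finset W, t ⊆ s ∧ LinearIndependent F (fun x : t => (x : W)) ∧
      Submodule.span A (t : Set W) = Submodule.span A (s : Set W) := by
  classical
  induction s using Finset.strongInduction with
  | H s ih =>
    by_cases hli : LinearIndependent F (fun x : s => (x : W))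
    · exact ⟨s, Finset.Subset.refl _, hli, rfl⟩
    · rw [Fintype.not_linearIndependent_iff] at hli
      obtain ⟨g, hg, i₀, hi₀⟩ := hli
      obtain ⟨j, -, hj⟩ := Finset.exists_max_image Finset.univ (fun i : s => A.valuation (g i))
        ⟨i₀, Finset.mem_univ _⟩
      have hgj : g j ≠ 0 := by
        intro h0
        have h1 := hj i₀ (Finset.mem_univ _)
        rw [h0, map_zero] at h1
        exact hi₀ ((map_eq_zero _).1 (le_antisymm h1 zero_le))
      have hmem : ∀ i, g i / g j ∈ A := by
        intro i
        rw [← A.valuation_le_one_iff, map_div₀]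
        exact div_le_one_of_le₀ (hj i (Finset.mem_univ _)) zero_le
      have hjspan : (j : W) ∈ Submodule.span A ((s.erase j : Finset W) : Set W) := by
        have h2 : g j • (j : W) = -∑ i ∈ Finset.univ.erase j, g i • (i : W) := by
          rw [eq_neg_iff_add_eq_zero,
            Finset.add_sum_erase _ (fun i : s => g i • (i : W)) (Finset.mem_univ j)]
          exact hg
        have h1 : (j : W) = ∑ i ∈ Finset.univ.erase j, (-(g i / g j)) • (i : W) := by
          calc (j : W) = (g j)⁻¹ • (g j • (j : W)) := by
                rw [smul_smul, inv_mul_cancel₀ hgj, one_smul]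
            _ = _ := by
                rw [h2, smul_neg, Finset.smul_sum, ← Finset.sum_neg_distrib]
                apply Finset.sum_congr rfl
                intro i _
                rw [neg_smul, smul_smul, div_eq_mul_inv, mul_comm]
        have h4 : ∑ i ∈ Finset.univ.erase j, (-(g i / g j)) • (i : W) ∈
            Submodule.span A ((s.erase j : Finset W) : Set W) := by
          apply Submodule.sum_mem
          intro i hi
          have h3 : (-(g i / g j)) • (i : W) =
              (⟨-(g i / g j), A.neg_mem _ (hmem i)⟩ : A) • (i : W) :=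
            (IsScalarTower.algebraMap_smul F (⟨-(g i / g j), A.neg_mem _ (hmem i)⟩ : A) (i : W))
          rw [h3]
          apply Submodule.smul_mem
          apply Submodule.subset_span
          rw [Finset.mem_coe, Finset.mem_erase]
          exact ⟨fun h => (Finset.mem_erase.1 hi).1 (Subtype.ext h), i.2⟩
        rwa [← h1] at h4
      obtain ⟨t, ht, hli', hsp⟩ := ih (s.erase j) (Finset.erase_ssubset j.2)
      refine ⟨t, ht.trans (Finset.erase_subset _ _), hli', hsp.trans ?_⟩
      apply le_antisymm (Submodule.span_mono (by exact_mod_cast Finset.erase_subset _ _))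
      rw [Submodule.span_le]
      intro x hx
      by_cases hxj : x = j
      · rw [hxj]; exact hjspan
      · exact Submodule.subset_span (Finset.mem_coe.2 (Finset.mem_erase.2 ⟨hxj, hx⟩))

/-- **A0b (descent).**  Equivariant functions which are linearly independent over the fixed field of `Γ` are
linearly independent over `Qb`.
PROOF: a shortest nontrivial relation `∑ a_i f_i = 0`, normalised by `a_{i0} = 1`; apply `γ` and use equivariance and the
surjectivity of `act γ`: `∑ γ(a_i) f_i = 0`; the difference is shorter, so all `a_i` are fixed by `Γ`. -/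
theorem linearIndependent_of_fixedField {Γ : Subgroup GQ} {X : Type} [AddCommGroup X] (act : Γ → X →+ X)
    (hsurj : ∀ γ, Function.Surjective (act γ)) {ι : Type*} (f : ι → X → Qb) (hf : ∀ i, Equi act (f i))
    (hli : LinearIndependent (IntermediateField.fixedField Γ : IntermediateField ℚ Qb) f) :
    LinearIndependent Qb f := by
  classical
  rw [linearIndependent_iff'] at hli ⊢
  intro s
  induction s using Finset.induction_on with
  | empty => intro g _ i hi; simp at hi
  | insert j s hj ih =>
    intro a ha
    by_cases haj : a j = 0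
    · have h1 : ∑ i ∈ s, a i • f i = 0 := by
        rw [Finset.sum_insert hj, haj, zero_smul, zero_add] at ha
        exact ha
      intro i hi
      rcases Finset.mem_insert.1 hi with rfl | hi
      · exact haj
      · exact ih a h1 i hi
    · exfalso
      have hrel : ∑ i ∈ s, ((a j)⁻¹ * a i) • f i + f j = 0 := by
        have h1 := congrArg (fun F => (a j)⁻¹ • F) ha
        simp only [Finset.sum_insert hj, smul_add, Finset.smul_sum, smul_smul, smul_zero] at h1
        rw [inv_mul_cancel₀ haj, one_smul, add_comm] at h1
        exact h1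
      generalize hb : (fun i => (a j)⁻¹ * a i) = b at hrel
      have hrel' : ∑ i ∈ s, b i • f i + f j = 0 := by
        rw [← hb]; exact hrel
      have hfix : ∀ γ : Γ, ∀ i ∈ s, (γ : GQ) (b i) = b i := by
        intro γ
        have h2 : ∑ i ∈ s, ((γ : GQ) (b i)) • f i + f j = 0 := by
          funext y
          obtain ⟨x, rfl⟩ := hsurj γ y
          have h3 := congrArg (γ : GQ) (congrFun hrel' x)
          simp only [Pi.add_apply, Finset.sum_apply, Pi.smul_apply, smul_eq_mul, map_add, map_sum,
            map_mul, Pi.zero_apply, map_zero] at h3 ⊢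
          simp only [hf _ γ x]
          exact h3
        have h4 : ∑ i ∈ s, ((γ : GQ) (b i) - b i) • f i = 0 := by
          simp only [sub_smul, Finset.sum_sub_distrib]
          rw [sub_eq_zero]
          exact add_right_cancel (h2.trans hrel'.symm)
        intro i hi
        exact sub_eq_zero.1 (ih _ h4 i hi)
      have hex : ∀ i, ∃ c : (IntermediateField.fixedField Γ : IntermediateField ℚ Qb),
          i ∈ s → (c : Qb) = b i := by
        intro i
        by_cases hi : i ∈ s
        · exact ⟨⟨b i, (IntermediateField.mem_fixedField_iff Γ (b i)).2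
            fun γ hγ => hfix ⟨γ, hγ⟩ i hi⟩, fun _ => rfl⟩
        · exact ⟨0, fun h => absurd h hi⟩
      choose c hc using hex
      have h5 := hli (insert j s) (fun i => if i = j then 1 else c i) (by
          rw [Finset.sum_insert hj, if_pos rfl, one_smul, add_comm, ← hrel']
          congr 1
          refine Finset.sum_congr rfl fun i hi => ?_
          have hij : i ≠ j := fun h => hj (h ▸ hi)
          rw [if_neg hij]
          funext x
          show (c i : Qb) * f i x = b i * f i x
          rw [hc i hi]) j (Finset.mem_insert_self j s)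
      simp at h5

/-- **A0.**  The `O`-span of a finite set of equivariant functions which spans `Map(X,Qb)` over `Qb` has an equivariant
basis.  PROOF: A0a over the valuation ring `P.A.comap (algebraMap K Qb)` of `K = fixedField Γ`, then A0b. -/
theorem hasEquiBasis_span (P : Plc) {Γ : Subgroup GQ} {X : Type} [AddCommGroup X] (act : Γ → X →+ X)
    (hsurj : ∀ γ, Function.Surjective (act γ)) (s : Finset (X → Qb)) (hs : ∀ f ∈ s, Equi act f)
    (hspan : Submodule.span Qb (s : Set (X → Qb)) = ⊤) :
    HasEquiBasis P act (Submodule.span P.A (s : Set (X → Qb))) := by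
  classical
  set K : IntermediateField ℚ Qb := IntermediateField.fixedField Γ with hK
  set AK : ValuationSubring K := P.A.comap (algebraMap K Qb) with hAK
  obtain ⟨t, hts, hli, hsp⟩ := exists_linearIndependent_subset_span_eq AK s
  have hle : ∀ w ∈ Submodule.span AK (t : Set (X → Qb)), w ∈ Submodule.span P.A (t : Set (X → Qb)) := by
    intro w hw
    induction hw using Submodule.span_induction with
    | mem x hx => exact Submodule.subset_span hx
    | zero => exact Submodule.zero_mem _
    | add x y _ _ hx hy => exact Submodule.add_mem _ hx hy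
    | smul a x _ hx =>
      have h1 : a • x = (⟨algebraMap K Qb (a : K), a.2⟩ : P.A) • x := rfl
      rw [h1]
      exact Submodule.smul_mem _ _ hx
  have hspA : Submodule.span P.A (s : Set (X → Qb)) = Submodule.span P.A (t : Set (X → Qb)) := by
    apply le_antisymm
    · rw [Submodule.span_le]
      intro x hx
      apply hle
      rw [hsp]
      exact Submodule.subset_span hx
    · exact Submodule.span_mono (by exact_mod_cast hts)
  have hrange : Set.range (fun x : t => (x : X → Qb)) = (t : Set (X → Qb)) := by
    simp
  refine ⟨t, inferInstance, fun x => (x : X → Qb), fun i => hs _ (hts i.2),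
    linearIndependent_of_fixedField act hsurj _ (fun i => hs _ (hts i.2)) hli, ?_, ?_⟩
  · rw [hrange, eq_top_iff, ← hspan, Submodule.span_le]
    intro x hx
    have h1 : x ∈ Submodule.span P.A (t : Set (X → Qb)) := hspA ▸ Submodule.subset_span hx
    exact Submodule.span_le_restrictScalars P.A Qb _ h1
  · rw [hrange, hspA]

/-- **A0c (dual basis).**  `β : V × V' → Qb` a perfect bilinear pairing of finite dimensional spaces given as a function
`β f b`; `f_i` a basis of `V`.  Abstract form used below: for a `Qb`-basis `f` of `Map(X,Qb)` and a NONDEGENERATE bilinear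
`β : (X → Qb) →ₗ[Qb] (X' → Qb) →ₗ[Qb] Qb` with `#X = #X'` there is a basis `b` of `Map(X',Qb)` with `β (f i) (b j) = δ_ij`. -/
theorem exists_dual_basis {X X' ι : Type} [Finite X] [Finite X'] [Fintype ι] [DecidableEq ι]
    (hcard : Nat.card X = Nat.card X')
    (β : (X → Qb) →ₗ[Qb] (X' → Qb) →ₗ[Qb] Qb) (hβ : ∀ f, (∀ b, β f b = 0) → f = 0)
    (f : ι → X → Qb) (hli : LinearIndependent Qb f) (hsp : Submodule.span Qb (Set.range f) = ⊤) :
    ∃ b : ι → X' → Qb, LinearIndependent Qb b ∧ Submodule.span Qb (Set.range b) = ⊤ ∧
      ∀ i j, β (f i) (b j) = if i = j then 1 else 0 := by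
  let _ := Fintype.ofFinite X
  let _ := Fintype.ofFinite X'
  have hinj : Function.Injective β := by
    rw [injective_iff_map_eq_zero]
    intro g hg
    exact hβ g fun b => by rw [hg]; rfl
  have hdim : Module.finrank Qb (X → Qb) = Module.finrank Qb (Module.Dual Qb (X' → Qb)) := by
    rw [Subspace.dual_finrank_eq, Module.finrank_fintype_fun_eq_card,
      Module.finrank_fintype_fun_eq_card, ← Nat.card_eq_fintype_card, ← Nat.card_eq_fintype_card,
      hcard]
  let βe : (X → Qb) ≃ₗ[Qb] Module.Dual Qb (X' → Qb) :=
    LinearEquiv.ofInjectiveOfFinrankEq β hinj hdim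
  let F : Module.Basis ι Qb (X → Qb) := Module.Basis.mk hli hsp.ge
  let B' : Module.Basis ι Qb (Module.Dual Qb (X' → Qb)) := F.map βe
  let bB : Module.Basis ι Qb (X' → Qb) := B'.dualBasis.map (Module.evalEquiv Qb (X' → Qb)).symm
  refine ⟨bB, bB.linearIndependent, bB.span_eq, fun i j => ?_⟩
  have h1 : β (f i) = B' i := by
    simp only [B', F, βe, Module.Basis.map_apply, Module.Basis.mk_apply]
    exact (congrArg (fun φ => φ (f i)) (LinearEquiv.coe_ofInjectiveOfFinrankEq β hinj hdim)).symm
  have h2 : Module.evalEquiv Qb (X' → Qb) (bB j) = B'.dualBasis j := by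
    simp [bB]
  have h3 : (B' i) (bB j) = Module.evalEquiv Qb (X' → Qb) (bB j) (B' i) := by
    simp
  rw [h1, h3, h2, Module.Basis.dualBasis_apply_self]

/-- **A0d (dual lattice of the span of a basis).**  With `f`, `b` dual bases as in A0c:
`{c | ∀ g ∈ span_O f, β g c ∈ O} = span_O b`, and symmetrically. -/
theorem mem_span_dual_basis_iff (P : Plc) {X X' ι : Type} [Fintype ι] [DecidableEq ι]
    (β : (X → Qb) →ₗ[Qb] (X' → Qb) →ₗ[Qb] Qb)
    (f : ι → X → Qb) (b : ι → X' → Qb) (hsb : Submodule.span Qb (Set.range b) = ⊤)
    (hfb : ∀ i j, β (f i) (b j) = if i = j then 1 else 0) (c : X' → Qb) :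
    c ∈ Submodule.span P.A (Set.range b) ↔ ∀ g ∈ Submodule.span P.A (Set.range f), β g c ∈ P.A := by
  constructor
  · intro hc g hg
    obtain ⟨s, rfl⟩ := (Submodule.mem_span_range_iff_exists_fun P.A).1 hc
    obtain ⟨t, rfl⟩ := (Submodule.mem_span_range_iff_exists_fun P.A).1 hg
    rw [map_sum]
    refine sum_mem fun j _ => ?_
    rw [map_sum, LinearMap.sum_apply]
    refine sum_mem fun i _ => ?_
    have e1 : t i • f i = ((t i : P.A) : Qb) • f i := rfl
    have e2 : s j • b j = ((s j : P.A) : Qb) • b j := rfl
    rw [e1, e2, map_smul, map_smul, LinearMap.smul_apply, hfb]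
    split_ifs
    · simpa using P.A.mul_mem _ _ (s j).2 (t i).2
    · simp
  · intro h
    have hc : c ∈ Submodule.span Qb (Set.range b) := by rw [hsb]; trivial
    obtain ⟨s, rfl⟩ := (Submodule.mem_span_range_iff_exists_fun Qb).1 hc
    have hs : ∀ i, s i ∈ P.A := by
      intro i
      have h1 := h (f i) (Submodule.subset_span ⟨i, rfl⟩)
      rw [map_sum] at h1
      simpa [hfb] using h1
    refine sum_mem fun j _ => ?_
    have e2 : s j • b j = (⟨s j, hs j⟩ : P.A) • b j := rfl
    rw [e2]
    exact Submodule.smul_mem _ _ (Submodule.subset_span ⟨j, rfl⟩)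

end Fermat.Agent.S56.F

end
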