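/-
S56 block (F), F-A ORDERS, A1: from the Hopf algebra datum of `GaloisRepAdic.IsFlatAt` to a dual pair.  (Blueprint: report 279.)
-/
import Fermat.Agent.S56.F.Order.Basic
import Fermat.Agent.S56.F.Order.LinAlg
import Fermat.Prelude.Def_GaloisRep_Flat

set_option autoImplicit false

open Fermat.Agent.PT.Local

noncomputable section

namespace Fermat.Agent.S56.F

/-- `X` (with the action `act` of `GQ`) is, Galois equivariantly, the group of `Qb`-points of a finite flat cocommutative Hopf
algebra over `ℤ_(p)`: the existential of `GaloisRepAdic.IsFlatAt`. -/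
def FlatMod (p : ℕ) (X : Type) [AddCommGroup X] (act : GQ → X →+ X) : Prop :=
  ∃ (H : Type) (_ : CommRing H) (_ : HopfAlgebra (GaloisRep.ratLocalizedAt p) H),
    Module.Finite (GaloisRep.ratLocalizedAt p) H ∧
    Module.Flat (GaloisRep.ratLocalizedAt p) H ∧
    Coalgebra.IsCocomm (GaloisRep.ratLocalizedAt p) H ∧
    ∃ e : WithConv (H →ₐ[GaloisRep.ratLocalizedAt p] Qb) ≃ X,
      (∀ f g : WithConv (H →ₐ[GaloisRep.ratLocalizedAt p] Qb), e (f * g) = e f + e g) ∧
      ∀ (σ : GQ) (f g : WithConv (H →ₐ[GaloisRep.ratLocalizedAt p] Qb)),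
        (∀ h : H, g h = σ (f h)) → e g = act σ (e f)

/-- An order of functions on `X` (no duality): a finite set `s` of `GQ`-equivariant functions whose `O`-span is a ring, separates the
points, and is closed under "comultiplication". -/
def FunOrder (P : Plc) (X : Type) [AddCommGroup X] (act : GQ → X →+ X) : Prop :=
  ∃ s : Finset (X → Qb),
    (∀ f ∈ s, ∀ (σ : GQ) (x : X), f (act σ x) = σ (f x)) ∧
    (1 : X → Qb) ∈ Submodule.span P.A (s : Set (X → Qb)) ∧
    (∀ f ∈ Submodule.span P.A (s : Set (X → Qb)), ∀ g ∈ Submodule.span P.A (s : Set (X → Qb)),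
      f * g ∈ Submodule.span P.A (s : Set (X → Qb))) ∧
    (∀ x y : X, x ≠ y → ∃ f ∈ s, f x ≠ f y) ∧
    ∀ f ∈ s, ∃ (ι : Type) (_ : Fintype ι) (f₁ f₂ : ι → X → Qb),
      (∀ i, f₁ i ∈ Submodule.span P.A (s : Set (X → Qb))) ∧
      (∀ i, f₂ i ∈ Submodule.span P.A (s : Set (X → Qb))) ∧
      ∀ x y : X, f (x + y) = ∑ i, f₁ i x * f₂ i y

/-- `ℤ_(ℓ) ⊆ P.A`. -/
theorem Bridge_algebraMap_mem (P : Plc) (r : GaloisRep.ratLocalizedAt P.ℓ) :
    algebraMap (GaloisRep.ratLocalizedAt P.ℓ) Qb r ∈ P.A := by
  have hr : (r : ℚ).den.Coprime P.ℓ := r.2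
  have hnd : ¬ P.ℓ ∣ (r : ℚ).den := by
    intro hd
    have h1 : P.ℓ ∣ Nat.gcd (r : ℚ).den P.ℓ := Nat.dvd_gcd hd dvd_rfl
    rw [hr] at h1
    exact P.prime.one_lt.ne' (Nat.dvd_one.1 h1)
  have e1 : algebraMap (GaloisRep.ratLocalizedAt P.ℓ) Qb r
      = ((r : ℚ).num : Qb) / ((r : ℚ).den : Qb) := by
    have : algebraMap (GaloisRep.ratLocalizedAt P.ℓ) Qb r = algebraMap ℚ Qb (r : ℚ) := rfl
    rw [this]
    conv_lhs => rw [← Rat.num_div_den (r : ℚ)]
    rw [map_div₀, map_intCast, map_natCast]
  rw [← ValuationSubring.valuation_le_one_iff, e1, map_div₀]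
  have h2 : P.v (((r : ℚ).den : ℕ) : Qb) = 1 := v_natCast_eq_one P hnd
  have h3 : P.v (((r : ℚ).num : ℤ) : Qb) ≤ 1 :=
    v_le_one_of_isIntegral P (by
      have := (isIntegral_algebraMap (R := ℤ) (A := Qb) (x := (r : ℚ).num))
      simpa using this)
  show P.v _ / P.v _ ≤ 1
  rw [h2, div_one]
  exact h3

/-- **Br1.**  `ev h x := (e.symm x) h`; `s` = image under `ev` of a finite generating set of the `ℤ_(p)`-module `H`.
`ev` is a ring hom, `ℤ_(p)`-linear (and `ℤ_(p) ⊆ P.A` because `P` lies over `p`: a rational with denominator prime to `p` is in `P.A`);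
equivariance: apply the hypothesis to `g := toConv (σ ∘ f)` (`AlgHom.comp (σ.restrictScalars _) f`); comultiplication:
`AlgHom.convMul_apply` + `Coalgebra.Repr` of `h` (`(f * g) h = ∑ f (h₁ i) * g (h₂ i)`). -/
theorem funOrder_of_flatMod (P : Plc) {X : Type} [AddCommGroup X] (act : GQ → X →+ X)
    (h : FlatMod P.ℓ X act) : FunOrder P X act := by
  classical
  obtain ⟨H, _, _, hfin, -, -, e, hadd, hact⟩ := h
  obtain ⟨t, ht⟩ := hfin.fg_top
  -- evaluation
  let ev : H → X → Qb := fun a x => (e.symm x).ofConv a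
  have ev_one : ev 1 = 1 := by
    funext x
    exact map_one (e.symm x).ofConv
  have ev_mul : ∀ a b, ev (a * b) = ev a * ev b := by
    intro a b
    funext x
    exact map_mul (e.symm x).ofConv a b
  have ev_add : ∀ a b, ev (a + b) = ev a + ev b := by
    intro a b
    funext x
    exact map_add (e.symm x).ofConv a b
  have ev_zero : ev 0 = 0 := by
    funext x
    exact map_zero (e.symm x).ofConv
  have ev_smul : ∀ (r : GaloisRep.ratLocalizedAt P.ℓ) a,
      ev (r • a) = (⟨algebraMap _ Qb r, Bridge_algebraMap_mem P r⟩ : P.A) • ev a := by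
    intro r a
    funext x
    show (e.symm x).ofConv (r • a) = algebraMap _ Qb r * (e.symm x).ofConv a
    rw [map_smul, Algebra.smul_def]
  have ev_mem : ∀ a, ev a ∈ Submodule.span P.A ((t.image ev : Finset (X → Qb)) : Set (X → Qb)) := by
    intro a
    have ha : a ∈ Submodule.span (GaloisRep.ratLocalizedAt P.ℓ) (t : Set H) := by
      rw [ht]; trivial
    induction ha using Submodule.span_induction with
    | mem a ha => exact Submodule.subset_span (Finset.mem_coe.2 (Finset.mem_image_of_mem ev ha))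
    | zero => rw [ev_zero]; exact Submodule.zero_mem _
    | add a b _ _ iha ihb => rw [ev_add]; exact Submodule.add_mem _ iha ihb
    | smul r a _ iha => rw [ev_smul]; exact Submodule.smul_mem _ _ iha
  refine ⟨t.image ev, ?_, ?_, ?_, ?_, ?_⟩
  · intro f hf σ x
    obtain ⟨a, -, rfl⟩ := Finset.mem_image.1 hf
    let g : WithConv (H →ₐ[GaloisRep.ratLocalizedAt P.ℓ] Qb) :=
      WithConv.toConv (((σ.restrictScalars (GaloisRep.ratLocalizedAt P.ℓ)).toAlgHom).comp
        (e.symm x).ofConv)
    have hg : e g = act σ (e (e.symm x)) := hact σ (e.symm x) g (fun _ => rfl)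
    rw [Equiv.apply_symm_apply] at hg
    show (e.symm (act σ x)).ofConv a = σ ((e.symm x).ofConv a)
    rw [← hg, Equiv.symm_apply_apply]
    rfl
  · rw [← ev_one]; exact ev_mem 1
  · intro f hf g hg
    induction hf using Submodule.span_induction with
    | mem f hf =>
      obtain ⟨a, -, rfl⟩ := Finset.mem_image.1 (Finset.mem_coe.1 hf)
      induction hg using Submodule.span_induction with
      | mem g hg =>
        obtain ⟨b, -, rfl⟩ := Finset.mem_image.1 (Finset.mem_coe.1 hg)
        rw [← ev_mul]; exact ev_mem _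
      | zero => rw [mul_zero]; exact Submodule.zero_mem _
      | add g₁ g₂ _ _ ih₁ ih₂ => rw [mul_add]; exact Submodule.add_mem _ ih₁ ih₂
      | smul r g _ ih => rw [mul_smul_comm]; exact Submodule.smul_mem _ _ ih
    | zero => rw [zero_mul]; exact Submodule.zero_mem _
    | add f₁ f₂ _ _ ih₁ ih₂ => rw [add_mul]; exact Submodule.add_mem _ ih₁ ih₂
    | smul r f _ ih => rw [smul_mul_assoc]; exact Submodule.smul_mem _ _ ih
  · intro x y hxy
    by_contra hcon
    push Not at hcon
    apply hxy
    apply e.symm.injective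
    apply WithConv.ext
    apply AlgHom.toLinearMap_injective
    apply LinearMap.ext_on ht
    intro a ha
    exact hcon (ev a) (Finset.mem_image_of_mem ev ha)
  · intro f hf
    obtain ⟨a, -, rfl⟩ := Finset.mem_image.1 hf
    obtain ⟨S, hS⟩ := TensorProduct.exists_finset
      (Coalgebra.comul (R := GaloisRep.ratLocalizedAt P.ℓ) a)
    refine ⟨S, inferInstance, fun i => ev i.1.1, fun i => ev i.1.2, fun i => ev_mem _,
      fun i => ev_mem _, fun x y => ?_⟩
    have e1 : e.symm (x + y) = e.symm x * e.symm y := by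
      apply e.injective
      rw [hadd, Equiv.apply_symm_apply, Equiv.apply_symm_apply, Equiv.apply_symm_apply]
    show (e.symm (x + y)).ofConv a = _
    rw [e1]
    have e2 := AlgHom.convMul_apply (e.symm x) (e.symm y) a
    refine e2.trans ?_
    rw [hS, map_sum, Finset.sum_coe_sort S
      (fun i => (e.symm x).ofConv i.1 * (e.symm y).ofConv i.2)]
    refine Finset.sum_congr rfl fun i _ => ?_
    rw [Algebra.TensorProduct.lift_tmul]

/-- **Br2a.**  A subalgebra-like span separating the points of a finite set is everything. -/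
theorem span_eq_top_of_separates {X : Type} [Finite X] (V : Submodule Qb (X → Qb)) (h1 : (1 : X → Qb) ∈ V)
    (hmul : ∀ f ∈ V, ∀ g ∈ V, f * g ∈ V) (hsep : ∀ x y : X, x ≠ y → ∃ f ∈ V, f x ≠ f y) : V = ⊤ := by
  classical
  let _ := Fintype.ofFinite X
  let S : Subalgebra Qb (X → Qb) :=
    { carrier := V
      mul_mem' := fun {a b} ha hb => hmul a ha b hb
      add_mem' := fun {a b} ha hb => V.add_mem ha hb
      algebraMap_mem' := fun r => by
        have h := V.smul_mem r h1
        rwa [Algebra.smul_def, mul_one] at h }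
  have hδ : ∀ x : X, Pi.single x (1 : Qb) ∈ V := by
    intro x
    have hch : ∀ y : X, ∃ g ∈ V, g x = 1 ∧ (y ≠ x → g y = 0) := by
      intro y
      by_cases hyx : y = x
      · exact ⟨1, h1, rfl, fun h => absurd hyx h⟩
      · obtain ⟨f, hf, hne⟩ := hsep x y (Ne.symm hyx)
        refine ⟨(f x - f y)⁻¹ • (f - f y • (1 : X → Qb)),
          V.smul_mem _ (V.sub_mem hf (V.smul_mem _ h1)), ?_, ?_⟩
        · simp only [Pi.smul_apply, Pi.sub_apply, Pi.one_apply, smul_eq_mul, mul_one]
          exact inv_mul_cancel₀ (sub_ne_zero.mpr hne)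
        · intro _
          simp only [Pi.smul_apply, Pi.sub_apply, Pi.one_apply, smul_eq_mul, mul_one, sub_self,
            mul_zero]
    choose g hgV hgx hgy using hch
    have hprod : (∏ y, g y) ∈ S := Subalgebra.prod_mem S (fun y _ => hgV y)
    have heq : Pi.single x (1 : Qb) = ∏ y, g y := by
      funext z
      rw [Finset.prod_apply]
      by_cases hz : z = x
      · subst hz
        simp only [Pi.single_eq_same, hgx, Finset.prod_const_one]
      · rw [Pi.single_eq_of_ne hz]
        exact (Finset.prod_eq_zero (f := fun c => g c z) (Finset.mem_univ z) (hgy z hz)).symm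
    rw [heq]
    exact hprod
  rw [eq_top_iff]
  intro f _
  have hf : f = ∑ x, f x • Pi.single x (1 : Qb) := by
    funext z
    simp [Finset.sum_apply, Pi.single_apply]
  rw [hf]
  exact V.sum_mem fun x _ => V.smul_mem _ (hδ x)

/-- **Br2b.**  The perfect pairing between a finite abelian group with a `GQ`-action (by automorphisms, `act` multiplicative) and its
character group (e.g. `X' = Additive (AddChar X Qb)`; finiteness: values are `#X`-th roots of unity), `e x w = w x`, `(act' γ w) x = γ (w (act γ⁻¹ x))`. -/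
theorem exists_perfPair (Γ : Subgroup GQ) {X : Type} [AddCommGroup X] [Finite X] (act : GQ → X →+ X)
    (hone : ∀ x, act 1 x = x) (hmul : ∀ σ τ x, act (σ * τ) x = act σ (act τ x)) :
    ∃ (X' : Type) (_ : AddCommGroup X') (_ : Finite X') (pp : PerfPair Γ X X'),
      ∀ (γ : Γ) (x : X), pp.act γ x = act γ x := by
  classical
  have hexp : Monoid.exponent (Multiplicative X) ≠ 0 := Monoid.exponent_ne_zero_of_finite
  have : NeZero ((Monoid.exponent (Multiplicative X) : ℕ) : ℚ) := ⟨by exact_mod_cast hexp⟩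
  have hinv : ∀ (σ : GQ) (x : X), act σ⁻¹ (act σ x) = x := by
    intro σ x
    rw [← hmul, inv_mul_cancel, hone]
  let act' : Γ → Additive (Multiplicative X →* Qbˣ) →+ Additive (Multiplicative X →* Qbˣ) :=
    fun γ => MonoidHom.toAdditive
      { toFun := fun w => (Units.map ((γ : GQ) : Qb →* Qb)).comp
          (w.comp (AddMonoidHom.toMultiplicative (act (γ : GQ)⁻¹)))
        map_one' := by
          ext x
          simp
        map_mul' := by
          intro w w'
          ext x
          simp }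
  refine ⟨Additive (Multiplicative X →* Qbˣ), inferInstance, inferInstance,
    { act := fun γ => act γ
      act' := act'
      e := fun x w => ((Additive.toMul w) (Multiplicative.ofAdd x) : Qbˣ)
      e_ne_zero := fun x w => Units.ne_zero _
      e_add_left := ?_
      e_add_right := ?_
      nondeg_left := ?_
      nondeg_right := ?_
      e_act := ?_ }, fun γ x => rfl⟩
  · intro x y w
    rw [ofAdd_add, map_mul, Units.val_mul]
  · intro x w w'
    rw [toMul_add, MonoidHom.mul_apply, Units.val_mul]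
  · intro x h
    by_contra hx
    have hx' : Multiplicative.ofAdd x ≠ 1 := fun h1 => hx (by simpa using h1)
    obtain ⟨φ, hφ⟩ := CommGroup.exists_apply_ne_one_of_hasEnoughRootsOfUnity
      (Multiplicative X) Qb hx'
    exact hφ (Units.ext (h (Additive.ofMul φ)))
  · intro w h
    have h1 : Additive.toMul w = 1 := by
      ext x
      exact h (Multiplicative.toAdd x)
    exact Additive.toMul.injective h1
  · intro γ x w
    show (γ : GQ) (((Additive.toMul w) (Multiplicative.ofAdd (act (γ : GQ)⁻¹ (act γ x))) : Qbˣ) : Qb)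
      = _
    rw [hinv]

theorem Bridge_card_eq {Γ : Subgroup GQ} {X X' : Type} [AddCommGroup X] [AddCommGroup X']
    [Finite X] [Finite X'] (pp : PerfPair Γ X X') : Nat.card X = Nat.card X' := by
  have h1 := pp.swap.card_mul_card_perp (⊥ : AddSubgroup X')
  have h2 : pp.swap.perp (⊥ : AddSubgroup X') = ⊤ := by
    ext x
    simp only [AddSubgroup.mem_top, iff_true]
    intro w hw
    rw [AddSubgroup.mem_bot.mp hw]
    exact pp.e_zero_right x
  rw [h2, AddSubgroup.card_bot, AddSubgroup.card_top, one_mul] at h1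
  exact h1

theorem Bridge_apply_mem (P : Plc) {X : Type} (H : Submodule P.A (X → Qb)) (h1 : (1 : X → Qb) ∈ H)
    (hmul : ∀ f ∈ H, ∀ g ∈ H, f * g ∈ H) (hfg : H.FG) {f : X → Qb} (hf : f ∈ H) (x : X) :
    f x ∈ P.A := by
  let S : Subalgebra P.A (X → Qb) :=
    { carrier := H
      mul_mem' := fun {a b} ha hb => hmul a ha b hb
      add_mem' := fun {a b} ha hb => H.add_mem ha hb
      algebraMap_mem' := fun r => by
        have h := H.smul_mem r h1
        rwa [Algebra.smul_def, mul_one] at h }
  have hS : Subalgebra.toSubmodule S = H := rfl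
  have hint : IsIntegral P.A f := IsIntegral.of_mem_of_fg S (hS ▸ hfg) f hf
  have hint2 : IsIntegral P.A (f x) := hint.map (Pi.evalAlgHom P.A (fun _ : X => Qb) x)
  obtain ⟨y, hy⟩ := (IsIntegrallyClosed.isIntegral_iff (R := P.A) (K := Qb)).mp hint2
  rw [← hy]
  exact y.2

/-- **Br2c (constructor).**  A perfect pairing and an order `H` on `X` with an equivariant basis, which is a ring and is closed under
comultiplication, give a dual pair (`B` := the dual lattice).
PROOF: `B := {b | ∀ f ∈ H, ⟨f,b⟩ ∈ O}`.  `1 ∈ B`: `⟨f,1⟩ = f 0`, integral because `H` is a ring and a f.g. module.  `B` closed under products: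
`PerfPair.pairing_mul_right`.  Dual basis (`exists_dual_basis` for `pairingL`), equivariant by uniqueness and `PerfPair.pairing_conj`;
`mem_span_dual_basis_iff` (twice, the second time for the swapped pairing) gives `basis_B` and `mem_H_iff`. -/
theorem exists_dualPair_of_order (P : Plc) {Γ : Subgroup GQ} {X X' : Type} [AddCommGroup X] [AddCommGroup X']
    [Finite X] [Finite X'] (pp : PerfPair Γ X X') (H : Submodule P.A (X → Qb)) (h1 : (1 : X → Qb) ∈ H)
    (hmul : ∀ f ∈ H, ∀ g ∈ H, f * g ∈ H) (hb : HasEquiBasis P pp.act H)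
    (hco : ∀ f ∈ H, ∃ (ι : Type) (_ : Fintype ι) (f₁ f₂ : ι → X → Qb), (∀ i, f₁ i ∈ H) ∧ (∀ i, f₂ i ∈ H) ∧
      ∀ x y : X, f (x + y) = ∑ i, f₁ i x * f₂ i y) :
    ∃ 𝒟 : DualPair P Γ X X', 𝒟.toPerfPair = pp ∧ 𝒟.H = H := by
  classical
  obtain ⟨ι, _, f, hfe, hfli, hfsp, hHf⟩ := id hb
  set β := pp.pairingL with hβ
  obtain ⟨b, hbli, hbsp, hfb⟩ := exists_dual_basis (Bridge_card_eq pp) β
    (fun g hg => pp.pairing_nondeg_left g hg) f hfli hfsp
  set B : Submodule P.A (X' → Qb) := Submodule.span P.A (Set.range b) with hB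
  have hmemB : ∀ c : X' → Qb, c ∈ B ↔ ∀ g ∈ H, pairing pp.e g c ∈ P.A := by
    intro c
    rw [hB, mem_span_dual_basis_iff P β f b hbsp hfb c, hHf]
    rfl
  have hmemH : ∀ g : X → Qb, g ∈ H ↔ ∀ c ∈ B, pairing pp.e g c ∈ P.A := by
    intro g
    rw [hHf, hB, mem_span_dual_basis_iff P β.flip b f hfsp (fun i j => by
      rw [LinearMap.flip_apply, hfb]
      simp only [eq_comm]) g]
    rfl
  have hbe : ∀ j, Equi pp.act' (b j) := by
    intro j γ q
    set ψ := Equiv.ofBijective _ (pp.act'_bijective γ) with hψ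
    set b₁ : X' → Qb := fun q => (γ : GQ) (b j (ψ.symm q)) with hb₁
    have hb₁' : ∀ q, b₁ (pp.act' γ q) = (γ : GQ) (b j q) := by
      intro q
      show (γ : GQ) (b j (ψ.symm (ψ q))) = _
      rw [Equiv.symm_apply_apply]
    have h5 : ∀ i, β (f i) (b₁ - b j) = 0 := by
      intro i
      have h6 := pp.pairing_conj (f i) (f i) (b j) b₁ γ (hfe i γ) hb₁'
      have h7 : pairing pp.e (f i) (b j) = if i = j then 1 else 0 := hfb i j
      have h8 : pairing pp.e (f i) b₁ = if i = j then 1 else 0 := by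
        rw [← h6, h7]
        split_ifs <;> simp
      rw [map_sub]
      show pairing pp.e (f i) b₁ - pairing pp.e (f i) (b j) = 0
      rw [h7, h8, sub_self]
    have h9 : β.flip (b₁ - b j) = 0 := by
      apply LinearMap.ext_on hfsp
      rintro _ ⟨i, rfl⟩
      exact h5 i
    have h10 : b₁ - b j = 0 := pp.pairing_nondeg_right _ (fun g => by
      have := LinearMap.congr_fun h9 g
      exact this)
    rw [← hb₁' q, sub_eq_zero.mp h10]
  have hfg : H.FG := by
    rw [hHf]
    exact Submodule.fg_span (Set.finite_range f)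
  refine ⟨{ toPerfPair := pp
            H := H
            B := B
            one_mem_H := h1
            mul_mem_H := hmul
            one_mem_B := ?_
            mul_mem_B := ?_
            basis_H := hb
            basis_B := ⟨ι, inferInstance, b, hbe, hbli, hbsp, rfl⟩
            mem_B_iff := hmemB
            mem_H_iff := hmemH }, rfl, rfl⟩
  · rw [hmemB]
    intro g hg
    rw [pp.pairing_one_right]
    exact Bridge_apply_mem P H h1 hmul hfg hg 0
  · intro c hc c' hc'
    rw [hmemB]
    intro g hg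
    obtain ⟨κ, _, g₁, g₂, hg₁, hg₂, hg12⟩ := hco g hg
    rw [pp.pairing_mul_right g g₁ g₂ hg12]
    exact sum_mem fun i _ =>
      P.A.mul_mem _ _ ((hmemB c).mp hc _ (hg₁ i)) ((hmemB c').mp hc' _ (hg₂ i))

/-- **A1.** -/
theorem exists_dualPair_of_funOrder (P : Plc) (Γ : Subgroup GQ) {X : Type} [AddCommGroup X] [Finite X]
    (act : GQ → X →+ X) (h : FunOrder P X act) :
    ∃ (X' : Type) (_ : AddCommGroup X') (_ : Finite X') (𝒟 : DualPair P Γ X X'),
      ∀ (γ : Γ) (x : X), 𝒟.act γ x = act γ x := by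
  classical
  obtain ⟨s, hs_eq, hs1, hsmul, hssep, hsco⟩ := h
  have hsepeq : ∀ x y : X, (∀ f ∈ s, f x = f y) → x = y := by
    intro x y hxy
    by_contra hne
    obtain ⟨f, hf, hfne⟩ := hssep x y hne
    exact hfne (hxy f hf)
  have hone : ∀ x, act 1 x = x := fun x => hsepeq _ _ fun f hf => by
    rw [hs_eq f hf]
    rfl
  have hmul : ∀ σ τ x, act (σ * τ) x = act σ (act τ x) := fun σ τ x =>
    hsepeq _ _ fun f hf => by
      rw [hs_eq f hf, hs_eq f hf, hs_eq f hf]
      rfl
  obtain ⟨X', _, _, pp, hpp⟩ := exists_perfPair Γ act hone hmul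
  set H := Submodule.span P.A (s : Set (X → Qb)) with hH
  have hle : ∀ g ∈ H, g ∈ Submodule.span Qb (s : Set (X → Qb)) := fun g hg =>
    Submodule.span_le_restrictScalars P.A Qb _ hg
  have hspan : Submodule.span Qb (s : Set (X → Qb)) = ⊤ := by
    apply span_eq_top_of_separates
    · exact hle 1 hs1
    · intro f hf g hg
      have h1 : f * g ∈ Submodule.span Qb (s : Set (X → Qb)) *
          Submodule.span Qb (s : Set (X → Qb)) := Submodule.mul_mem_mul hf hg
      rw [Submodule.span_mul_span] at h1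
      refine Submodule.span_le.mpr ?_ h1
      rintro _ ⟨a, ha, b, hb, rfl⟩
      exact hle _ (hsmul a (Submodule.subset_span ha) b (Submodule.subset_span hb))
    · intro x y hxy
      obtain ⟨f, hf, hne⟩ := hssep x y hxy
      exact ⟨f, Submodule.subset_span hf, hne⟩
  have hbasis : HasEquiBasis P pp.act H :=
    hasEquiBasis_span P pp.act (fun γ => (pp.act_bijective γ).2) s
      (fun f hf γ x => by rw [hpp]; exact hs_eq f hf γ x) hspan
  have hco : ∀ f ∈ H, ∃ (ι : Type) (_ : Fintype ι) (f₁ f₂ : ι → X → Qb), (∀ i, f₁ i ∈ H) ∧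
      (∀ i, f₂ i ∈ H) ∧ ∀ x y : X, f (x + y) = ∑ i, f₁ i x * f₂ i y := by
    intro f hf
    induction hf using Submodule.span_induction with
    | mem f hf => exact hsco f hf
    | zero =>
      exact ⟨Empty, inferInstance, fun i => i.elim, fun i => i.elim, fun i => i.elim,
        fun i => i.elim, fun x y => by simp⟩
    | add f g _ _ ihf ihg =>
      obtain ⟨ι, _, f₁, f₂, h1, h2, h3⟩ := ihf
      obtain ⟨κ, _, g₁, g₂, h4, h5, h6⟩ := ihg
      refine ⟨ι ⊕ κ, inferInstance, Sum.elim f₁ g₁, Sum.elim f₂ g₂, ?_, ?_, ?_⟩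
      · rintro (i | i)
        exacts [h1 i, h4 i]
      · rintro (i | i)
        exacts [h2 i, h5 i]
      · intro x y
        rw [Fintype.sum_sum_type, Pi.add_apply, h3, h6]
        rfl
    | smul a f _ ih =>
      obtain ⟨ι, _, f₁, f₂, h1, h2, h3⟩ := ih
      refine ⟨ι, inferInstance, fun i => a • f₁ i, f₂, fun i => H.smul_mem a (h1 i), h2, ?_⟩
      intro x y
      rw [Pi.smul_apply, h3, Finset.smul_sum]
      refine Finset.sum_congr rfl fun i _ => ?_
      show a • (f₁ i x * f₂ i y) = (a • f₁ i x) * f₂ i y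
      rw [smul_mul_assoc]
  obtain ⟨𝒟, h𝒟, -⟩ := exists_dualPair_of_order P pp H hs1 hsmul hbasis hco
  refine ⟨X', inferInstance, inferInstance, 𝒟, fun γ x => ?_⟩
  rw [← hpp]
  show 𝒟.toPerfPair.act γ x = pp.act γ x
  rw [h𝒟]

theorem exists_dualPair_of_flatMod (P : Plc) (Γ : Subgroup GQ) {X : Type} [AddCommGroup X] [Finite X]
    (act : GQ → X →+ X) (h : FlatMod P.ℓ X act) :
    ∃ (X' : Type) (_ : AddCommGroup X') (_ : Finite X') (𝒟 : DualPair P Γ X X'),
      ∀ (γ : Γ) (x : X), 𝒟.act γ x = act γ x :=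
  exists_dualPair_of_funOrder P Γ act (funOrder_of_flatMod P act h)

end Fermat.Agent.S56.F

end
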