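/-
S56 block (F), F-A ORDERS, A3: sub-objects (closures) and quotients of a dual pair.   (Blueprint: report 279.)
-/
import Fermat.Agent.S56.F.Order.Basic
import Fermat.Agent.S56.F.Order.LinAlg

set_option autoImplicit false

open Fermat.Agent.PT.Local

noncomputable section

namespace Fermat.Agent.S56.F

namespace DualPair

variable {P : Plc} {Γ : Subgroup GQ} {X X' : Type} [AddCommGroup X] [AddCommGroup X']
  [Finite X] [Finite X'] (𝒟 : DualPair P Γ X X')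

/-! ### helpers for `stable_perp`, `exists_sub` -/

/-- `act γ` maps `C` onto `C`. -/
theorem SubQuot_exists_act {C : AddSubgroup X} (hC : 𝒟.Stable C) (γ : Γ) (x : X) (hx : x ∈ C) :
    ∃ y ∈ C, 𝒟.act γ y = x := by
  have hinj : Function.Injective (fun y : C => (⟨𝒟.act γ y, hC γ y y.2⟩ : C)) := by
    intro y y' h
    exact Subtype.ext ((𝒟.act_bijective γ).1 (congrArg Subtype.val h))
  obtain ⟨y, hy⟩ := Finite.surjective_of_injective hinj ⟨x, hx⟩
  exact ⟨y, y.2, congrArg Subtype.val hy⟩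

theorem stable_perp {C : AddSubgroup X} (hC : 𝒟.Stable C) : 𝒟.swap.Stable (𝒟.perp C) := by
  intro γ w hw x hx
  obtain ⟨y, hy, rfl⟩ := 𝒟.SubQuot_exists_act hC γ x hx
  show 𝒟.e (𝒟.act γ y) (𝒟.act' γ w) = 1
  rw [𝒟.e_act, hw y hy, map_one]

/-- the action on `C`. -/
def SubQuot_act (C : AddSubgroup X) (hC : 𝒟.Stable C) (γ : Γ) : C →+ C :=
  ((𝒟.act γ).comp C.subtype).codRestrict C (fun x => hC γ x x.2)

/-- the action on `X' / C^⊥`. -/
def SubQuot_act' (C : AddSubgroup X) (hC : 𝒟.Stable C) (γ : Γ) :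
    X' ⧸ 𝒟.perp C →+ X' ⧸ 𝒟.perp C :=
  QuotientAddGroup.map _ _ (𝒟.act' γ) (fun w hw => 𝒟.stable_perp hC γ w hw)

/-- the pairing on `C × X' / C^⊥`. -/
def SubQuot_e (C : AddSubgroup X) (x : C) (q : X' ⧸ 𝒟.perp C) : Qb :=
  Quotient.liftOn' q (fun w => 𝒟.e x w) (by
    intro a b hab
    have h1 : -a + b ∈ 𝒟.perp C := QuotientAddGroup.leftRel_apply.mp hab
    have h2 : 𝒟.e x b = 𝒟.e x a * 𝒟.e x (-a + b) := by
      rw [← 𝒟.e_add_right]
      congr 1
      abel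
    show 𝒟.e x a = 𝒟.e x b
    rw [h2, h1 x x.2, mul_one])

theorem SubQuot_e_mk (C : AddSubgroup X) (x : C) (w : X') :
    𝒟.SubQuot_e C x (QuotientAddGroup.mk w) = 𝒟.e x w := rfl

theorem SubQuot_e_out (C : AddSubgroup X) (x : C) (q : X' ⧸ 𝒟.perp C) :
    𝒟.SubQuot_e C x q = 𝒟.e x q.out := by
  conv_lhs => rw [← QuotientAddGroup.out_eq' q]
  rfl

theorem SubQuot_pairing_eq_sum {Y Y' : Type} [Finite Y] [Finite Y'] [Fintype Y] [Fintype Y']
    (e : Y → Y' → Qb) (f : Y → Qb) (b : Y' → Qb) :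
    pairing e f b = (Nat.card Y : Qb)⁻¹ * ∑ x : Y, ∑ w : Y', f x * b w * (e x w)⁻¹ := by
  unfold pairing
  congr!

theorem SubQuot_sum_quot {G : Type} [AddCommGroup G] (N : AddSubgroup G) [Fintype G] [Fintype N]
    [Fintype (G ⧸ N)] (h : G → Qb) :
    ∑ w, h w = ∑ q : G ⧸ N, ∑ u : N, h (q.out + u) := by
  rw [← Fintype.sum_prod_type']
  symm
  apply Fintype.sum_bijective (fun p : (G ⧸ N) × N => p.1.out + (p.2 : G))
  · constructor
    · rintro ⟨q, u⟩ ⟨q', u'⟩ h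
      have h' : q.out + (u : G) = q'.out + (u' : G) := h
      have h1 : q = q' := by
        have h2 := congrArg (QuotientAddGroup.mk : G → G ⧸ N) h'
        rwa [QuotientAddGroup.mk_add_of_mem _ u.2, QuotientAddGroup.mk_add_of_mem _ u'.2,
          QuotientAddGroup.out_eq', QuotientAddGroup.out_eq'] at h2
      subst h1
      have h3 : (u : G) = u' := add_left_cancel h'
      rw [Subtype.ext h3]
    · intro w
      refine ⟨(QuotientAddGroup.mk w, ⟨-(QuotientAddGroup.mk w : G ⧸ N).out + w, ?_⟩), ?_⟩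
      · rw [← QuotientAddGroup.eq, QuotientAddGroup.out_eq']
      · show (QuotientAddGroup.mk w : G ⧸ N).out + (-(QuotientAddGroup.mk w : G ⧸ N).out + w) = w
        abel
  · intro p
    rfl

theorem SubQuot_sum_perp (C : AddSubgroup X) [Fintype (𝒟.perp C)] (x : X) [Decidable (x ∈ C)] :
    ∑ u : 𝒟.perp C, (𝒟.e x u)⁻¹ = if x ∈ C then (Nat.card (𝒟.perp C) : Qb) else 0 := by
  split_ifs with hx
  · have h1 : ∀ u : 𝒟.perp C, (𝒟.e x u)⁻¹ = 1 := fun u => by rw [u.2 x hx, inv_one]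
    simp only [h1, Finset.sum_const, Finset.card_univ, nsmul_eq_mul, mul_one,
      Nat.card_eq_fintype_card]
  · have h1 : ∃ u₀ ∈ 𝒟.perp C, 𝒟.e x u₀ ≠ 1 := by
      by_contra hcon
      push Not at hcon
      exact hx (𝒟.mem_of_forall_perp C x hcon)
    obtain ⟨u₀, hu₀, hne⟩ := h1
    have h2 : ∑ u : 𝒟.perp C, (𝒟.e x u)⁻¹
        = (𝒟.e x u₀)⁻¹ * ∑ u : 𝒟.perp C, (𝒟.e x u)⁻¹ := by
      rw [Finset.mul_sum, ← Equiv.sum_comp (Equiv.addRight (⟨u₀, hu₀⟩ : 𝒟.perp C))]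
      refine Finset.sum_congr rfl fun u _ => ?_
      show (𝒟.e x ((u : X') + u₀))⁻¹ = _
      rw [𝒟.e_add_right, mul_inv, mul_comm]
    have h3 : (1 - (𝒟.e x u₀)⁻¹) * ∑ u : 𝒟.perp C, (𝒟.e x u)⁻¹ = 0 := by
      rw [sub_mul, one_mul, ← h2, sub_self]
    rcases mul_eq_zero.mp h3 with h4 | h4
    · exfalso
      apply hne
      have h5 : (𝒟.e x u₀)⁻¹ = 1 := (sub_eq_zero.mp h4).symm
      rw [← inv_inv (𝒟.e x u₀), h5, inv_one]
    · exact h4

/-- **Key identity.** `⟨F|_C, b⟩_C = ⟨F, b ∘ proj⟩_X`. -/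
theorem SubQuot_key (C : AddSubgroup X) (F : X → Qb) (b : X' ⧸ 𝒟.perp C → Qb) :
    pairing (𝒟.SubQuot_e C) (fun x : C => F x) b
      = pairing 𝒟.e F (fun w => b (QuotientAddGroup.mk w)) := by
  classical
  let _ := Fintype.ofFinite X
  let _ := Fintype.ofFinite X'
  let _ := Fintype.ofFinite C
  let _ := Fintype.ofFinite (𝒟.perp C)
  let _ := Fintype.ofFinite (X' ⧸ 𝒟.perp C)
  rw [SubQuot_pairing_eq_sum, SubQuot_pairing_eq_sum]
  have hcard : (Nat.card C : Qb) * (Nat.card (𝒟.perp C) : Qb) = (Nat.card X : Qb) := by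
    exact_mod_cast 𝒟.card_mul_card_perp C
  have hC0 : (Nat.card C : Qb) ≠ 0 := by exact_mod_cast (Nat.card_pos (α := C)).ne'
  have hP0 : (Nat.card (𝒟.perp C) : Qb) ≠ 0 := by
    exact_mod_cast (Nat.card_pos (α := 𝒟.perp C)).ne'
  set T : X → Qb := fun x => ∑ q : X' ⧸ 𝒟.perp C, F x * b q * (𝒟.e x q.out)⁻¹ with hT
  have h1 : ∀ x : X, ∑ w : X', F x * b (QuotientAddGroup.mk w) * (𝒟.e x w)⁻¹
      = (if x ∈ C then (Nat.card (𝒟.perp C) : Qb) else 0) * T x := by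
    intro x
    rw [SubQuot_sum_quot (𝒟.perp C), ← 𝒟.SubQuot_sum_perp C x, hT, Finset.mul_sum]
    refine Finset.sum_congr rfl fun q _ => ?_
    rw [Finset.sum_mul, Finset.sum_congr rfl]
    intro u _
    rw [QuotientAddGroup.mk_add_of_mem _ u.2, QuotientAddGroup.out_eq', 𝒟.e_add_right, mul_inv]
    ring
  have h2 : ∑ x : X, (if x ∈ C then (Nat.card (𝒟.perp C) : Qb) else 0) * T x
      = (Nat.card (𝒟.perp C) : Qb) * ∑ x : C, T x := by
    rw [← Finset.sum_subtype (Finset.univ.filter (· ∈ C)) (by simp) T, Finset.sum_filter,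
      Finset.mul_sum]
    refine Finset.sum_congr rfl fun x _ => ?_
    split_ifs <;> simp
  rw [Finset.sum_congr rfl fun x _ => h1 x, h2, ← hcard, mul_inv, mul_assoc,
    inv_mul_cancel_left₀ hP0]
  congr 1
  refine Finset.sum_congr rfl fun x _ => ?_
  rw [hT]
  refine Finset.sum_congr rfl fun q _ => ?_
  rw [𝒟.SubQuot_e_out]

theorem SubQuot_perp_perp (C : AddSubgroup X) : 𝒟.swap.perp (𝒟.perp C) = C := by
  ext x
  constructor
  · intro h
    exact 𝒟.mem_of_forall_perp C x h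
  · intro hx w hw
    exact hw x hx

theorem SubQuot_card (C : AddSubgroup X) : Nat.card C = Nat.card (X' ⧸ 𝒟.perp C) := by
  have h1 := 𝒟.swap.card_mul_card_perp (𝒟.perp C)
  rw [𝒟.SubQuot_perp_perp C] at h1
  have h2 := AddSubgroup.card_eq_card_quotient_mul_card_addSubgroup (𝒟.perp C)
  have h4 : 0 < Nat.card (𝒟.perp C) := Nat.card_pos
  exact Nat.eq_of_mul_eq_mul_right h4 (by rw [← h2, ← h1, mul_comm])

/-- The pairing (for an arbitrary kernel `e`) as a bilinear map. -/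
def SubQuot_pairingL {Y Y' : Type} [Finite Y] [Finite Y'] (e : Y → Y' → Qb) :
    (Y → Qb) →ₗ[Qb] (Y' → Qb) →ₗ[Qb] Qb :=
  LinearMap.mk₂ Qb (pairing e)
    (by
      intro f f' b
      unfold pairing
      simp only [Pi.add_apply, add_mul, Finset.sum_add_distrib, mul_add])
    (by
      intro c f b
      unfold pairing
      simp only [Pi.smul_apply, smul_eq_mul, Finset.mul_sum]
      refine Finset.sum_congr rfl fun x _ => Finset.sum_congr rfl fun w _ => ?_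
      ring)
    (by
      intro f b b'
      unfold pairing
      simp only [Pi.add_apply, add_mul, mul_add, Finset.sum_add_distrib])
    (by
      intro c f b
      unfold pairing
      simp only [Pi.smul_apply, smul_eq_mul, Finset.mul_sum]
      refine Finset.sum_congr rfl fun x _ => Finset.sum_congr rfl fun w _ => ?_
      ring)

theorem SubQuot_pairingL_apply {Y Y' : Type} [Finite Y] [Finite Y'] (e : Y → Y' → Qb)
    (f : Y → Qb) (b : Y' → Qb) : SubQuot_pairingL e f b = pairing e f b := rfl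

open Classical in
/-- extension by zero. -/
def SubQuot_ext (C : AddSubgroup X) (f : C → Qb) : X → Qb :=
  fun y => if hy : y ∈ C then f ⟨y, hy⟩ else 0

omit [Finite X] in
theorem SubQuot_ext_res (C : AddSubgroup X) (f : C → Qb) :
    (fun y : C => SubQuot_ext C f y) = f := by
  funext y
  simp [SubQuot_ext]

theorem SubQuot_nondeg_left (C : AddSubgroup X) (f : C → Qb)
    (h : ∀ b, pairing (𝒟.SubQuot_e C) f b = 0) : f = 0 := by
  funext x
  have h1 := h (fun q => 𝒟.SubQuot_e C x q)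
  rw [← SubQuot_ext_res C f, 𝒟.SubQuot_key C (SubQuot_ext C f)] at h1
  have h2 : (fun w => 𝒟.SubQuot_e C x (QuotientAddGroup.mk w)) = fun w => 𝒟.e x w := rfl
  rw [h2, 𝒟.pairing_e_right] at h1
  have h3 := congrFun (SubQuot_ext_res C f) x
  rw [← h3]
  exact h1

theorem SubQuot_nondeg_right (C : AddSubgroup X) (b : X' ⧸ 𝒟.perp C → Qb)
    (h : ∀ f, pairing (𝒟.SubQuot_e C) f b = 0) : b = 0 := by
  have h1 : (fun w => b (QuotientAddGroup.mk w)) = 0 :=
    𝒟.pairing_nondeg_right _ (fun F => by rw [← 𝒟.SubQuot_key C F b]; exact h _)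
  funext q
  obtain ⟨w, rfl⟩ := QuotientAddGroup.mk_surjective q
  exact congrFun h1 w

theorem SubQuot_conj (C : AddSubgroup X) (hC : 𝒟.Stable C) (f f₁ : C → Qb)
    (b b₁ : X' ⧸ 𝒟.perp C → Qb) (γ : Γ)
    (hf : ∀ x, f₁ (𝒟.SubQuot_act C hC γ x) = (γ : GQ) (f x))
    (hb : ∀ q, b₁ (𝒟.SubQuot_act' C hC γ q) = (γ : GQ) (b q)) :
    (γ : GQ) (pairing (𝒟.SubQuot_e C) f b) = pairing (𝒟.SubQuot_e C) f₁ b₁ := by
  rw [← SubQuot_ext_res C f, ← SubQuot_ext_res C f₁, 𝒟.SubQuot_key, 𝒟.SubQuot_key]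
  apply 𝒟.pairing_conj
  · intro x
    by_cases hx : x ∈ C
    · have h1 := hf ⟨x, hx⟩
      have h2 : SubQuot_ext C f x = f ⟨x, hx⟩ := by simp [SubQuot_ext, hx]
      have h3 : SubQuot_ext C f₁ (𝒟.act γ x) = f₁ ⟨𝒟.act γ x, hC γ x hx⟩ := by
        simp [SubQuot_ext, hC γ x hx]
      rw [h2, h3]
      exact h1
    · have hx' : 𝒟.act γ x ∉ C := by
        intro h
        obtain ⟨y, hy, hyx⟩ := 𝒟.SubQuot_exists_act hC γ _ h
        exact hx ((𝒟.act_bijective γ).1 hyx ▸ hy)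
      simp [SubQuot_ext, hx, hx']
  · intro w
    exact hb (QuotientAddGroup.mk w)

/-- **A3 (SUB).**  `C ≤ X` a `Γ`-stable subgroup.  The dual pair on `(C, X'/C^⊥)`:
`H_C = H|_C`, `B_C = {b | b ∘ proj ∈ B}`.
PROOF.  Pairing `e(x, w mod C^⊥)`, perfect by `mem_of_forall_perp`.  Key identity
`⟨F|_C, b⟩_C = ⟨F, b ∘ proj⟩_X` (sum over the cosets of `C^⊥`: `∑_{w ∈ w₀ + C^⊥} e(x,w)⁻¹ = #C^⊥ e(x,w₀)⁻¹ [x ∈ C]`,
`#C #C^⊥ = #X`).  So `B_C` is by definition the dual lattice of `H|_C`.  `H|_C` is the span of the restrictions of the equivariant basis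
of `H`, which span `Map(C,Qb)`: `hasEquiBasis_span` gives an equivariant basis `f_i`; the dual basis (`exists_dual_basis`) is equivariant by
uniqueness + `pairing_conj`, and spans `B_C` (`mem_span_dual_basis_iff`), which also gives `mem_H_iff`.  Rings: clear. -/
theorem exists_sub (C : AddSubgroup X) (hC : 𝒟.Stable C) :
    ∃ 𝒮 : DualPair P Γ C (X' ⧸ 𝒟.perp C),
      (∀ (γ : Γ) (x : C), ((𝒮.act γ x : C) : X) = 𝒟.act γ x) ∧
      (∀ (γ : Γ) (w : X'), 𝒮.act' γ (QuotientAddGroup.mk w) = QuotientAddGroup.mk (𝒟.act' γ w)) ∧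
      (∀ (x : C) (w : X'), 𝒮.e x (QuotientAddGroup.mk w) = 𝒟.e x w) ∧
      (∀ f : C → Qb, f ∈ 𝒮.H ↔ ∃ F ∈ 𝒟.H, ∀ x : C, f x = F x) ∧
      (∀ b : X' ⧸ 𝒟.perp C → Qb, b ∈ 𝒮.B ↔ (fun w : X' => b (QuotientAddGroup.mk w)) ∈ 𝒟.B) := by
  classical
  set actS := 𝒟.SubQuot_act C hC with hactS
  set actS' := 𝒟.SubQuot_act' C hC with hactS'
  set eS := 𝒟.SubQuot_e C with heS
  set res : (X → Qb) →ₗ[P.A] (C → Qb) := LinearMap.funLeft P.A Qb (Subtype.val : C → X) with hres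
  set pr : (X' ⧸ 𝒟.perp C → Qb) →ₗ[P.A] (X' → Qb) :=
    LinearMap.funLeft P.A Qb (QuotientAddGroup.mk : X' → X' ⧸ 𝒟.perp C) with hpr
  set HS : Submodule P.A (C → Qb) := 𝒟.H.map res with hHS
  set BS : Submodule P.A (X' ⧸ 𝒟.perp C → Qb) := 𝒟.B.comap pr with hBS
  have hmemHS : ∀ f : C → Qb, f ∈ HS ↔ ∃ F ∈ 𝒟.H, ∀ x : C, f x = F x := by
    intro f
    rw [hHS, Submodule.mem_map]
    constructor
    · rintro ⟨F, hF, rfl⟩
      exact ⟨F, hF, fun x => rfl⟩
    · rintro ⟨F, hF, h⟩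
      exact ⟨F, hF, funext fun x => (h x).symm⟩
  have hmemBS : ∀ b : X' ⧸ 𝒟.perp C → Qb,
      b ∈ BS ↔ (fun w : X' => b (QuotientAddGroup.mk w)) ∈ 𝒟.B := fun b => Iff.rfl
  have hmemB : ∀ b : X' ⧸ 𝒟.perp C → Qb, b ∈ BS ↔ ∀ f ∈ HS, pairing eS f b ∈ P.A := by
    intro b
    rw [hmemBS, 𝒟.mem_B_iff]
    constructor
    · intro h f hf
      obtain ⟨F, hF, rfl⟩ := Submodule.mem_map.mp hf
      have := h F hF
      rw [← 𝒟.SubQuot_key C F b] at this
      exact this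
    · intro h F hF
      rw [← 𝒟.SubQuot_key C F b]
      exact h _ (Submodule.mem_map_of_mem hF)
  have hsurj : ∀ γ, Function.Surjective (actS γ) := by
    intro γ x
    obtain ⟨y, hy, hyx⟩ := 𝒟.SubQuot_exists_act hC γ x x.2
    exact ⟨⟨y, hy⟩, Subtype.ext hyx⟩
  have hbasisH : HasEquiBasis P actS HS := by
    obtain ⟨ι₀, _, f₀, h1, h2, h3, h4⟩ := 𝒟.basis_H
    set s : Finset (C → Qb) := Finset.univ.image (fun i => res (f₀ i)) with hs
    have hs_coe : (s : Set (C → Qb)) = res '' (Set.range f₀) := by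
      rw [hs, Finset.coe_image, Finset.coe_univ, Set.image_univ, ← Set.range_comp]
      rfl
    have hHSs : HS = Submodule.span P.A (s : Set (C → Qb)) := by
      rw [hs_coe, ← Submodule.map_span, ← h4]
    rw [hHSs]
    apply hasEquiBasis_span P actS hsurj s
    · intro g hg
      obtain ⟨i, -, rfl⟩ := Finset.mem_image.mp hg
      intro γ x
      exact h1 i γ x
    · have hs_coe' : (s : Set (C → Qb))
          = (LinearMap.funLeft Qb Qb (Subtype.val : C → X)) '' (Set.range f₀) := hs_coe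
      rw [hs_coe', ← Submodule.map_span, h3, Submodule.map_top, LinearMap.range_eq_top]
      exact LinearMap.funLeft_surjective_of_injective Qb Qb _ Subtype.val_injective
  obtain ⟨ι, _, f, hfe, hfli, hfsp, hHSf⟩ := id hbasisH
  set β := SubQuot_pairingL eS with hβ
  obtain ⟨b, hbli, hbsp, hfb⟩ := exists_dual_basis (𝒟.SubQuot_card C) β
    (fun g hg => 𝒟.SubQuot_nondeg_left C g hg) f hfli hfsp
  have hBSb : BS = Submodule.span P.A (Set.range b) := by
    ext c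
    rw [mem_span_dual_basis_iff P β f b hbsp hfb c, hmemB, hHSf]
    rfl
  have hmemH : ∀ g : C → Qb, g ∈ HS ↔ ∀ c ∈ BS, pairing eS g c ∈ P.A := by
    intro g
    rw [hHSf, hBSb, mem_span_dual_basis_iff P β.flip b f hfsp (fun i j => by
      rw [LinearMap.flip_apply, hfb]
      simp only [eq_comm]) g]
    rfl
  have hbe : ∀ j, Equi actS' (b j) := by
    intro j γ q
    have hbij : Function.Bijective (actS' γ) := by
      apply Function.Surjective.bijective_of_finite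
      intro q
      obtain ⟨w, rfl⟩ := QuotientAddGroup.mk_surjective q
      obtain ⟨w', rfl⟩ := (𝒟.act'_bijective γ).2 w
      exact ⟨QuotientAddGroup.mk w', rfl⟩
    set ψ := Equiv.ofBijective _ hbij with hψ
    set b₁ : (X' ⧸ 𝒟.perp C) → Qb := fun q => (γ : GQ) (b j (ψ.symm q)) with hb₁
    have hb₁' : ∀ q, b₁ (actS' γ q) = (γ : GQ) (b j q) := by
      intro q
      show (γ : GQ) (b j (ψ.symm (ψ q))) = _
      rw [Equiv.symm_apply_apply]
    have h5 : ∀ i, β (f i) (b₁ - b j) = 0 := by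
      intro i
      have h6 := 𝒟.SubQuot_conj C hC (f i) (f i) (b j) b₁ γ (hfe i γ) hb₁'
      have h7 : pairing eS (f i) (b j) = if i = j then 1 else 0 := hfb i j
      have h8 : pairing eS (f i) b₁ = if i = j then 1 else 0 := by
        rw [← h6, h7]
        split_ifs <;> simp
      rw [map_sub]
      show pairing eS (f i) b₁ - pairing eS (f i) (b j) = 0
      rw [h7, h8, sub_self]
    have h9 : β.flip (b₁ - b j) = 0 := by
      apply LinearMap.ext_on hfsp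
      rintro _ ⟨i, rfl⟩
      exact h5 i
    have h10 : b₁ - b j = 0 := 𝒟.SubQuot_nondeg_right C _ (fun g => by
      have := LinearMap.congr_fun h9 g
      exact this)
    rw [← hb₁' q, sub_eq_zero.mp h10]
  refine ⟨{ act := actS
            act' := actS'
            e := eS
            e_ne_zero := ?_
            e_add_left := ?_
            e_add_right := ?_
            nondeg_left := ?_
            nondeg_right := ?_
            e_act := ?_
            H := HS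
            B := BS
            one_mem_H := ?_
            mul_mem_H := ?_
            one_mem_B := ?_
            mul_mem_B := ?_
            basis_H := hbasisH
            basis_B := ⟨ι, inferInstance, b, hbe, hbli, hbsp, hBSb⟩
            mem_B_iff := hmemB
            mem_H_iff := hmemH }, fun γ x => rfl, fun γ w => rfl, fun x w => rfl, hmemHS, hmemBS⟩
  · intro x q
    obtain ⟨w, rfl⟩ := QuotientAddGroup.mk_surjective q
    exact 𝒟.e_ne_zero x w
  · intro x y q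
    obtain ⟨w, rfl⟩ := QuotientAddGroup.mk_surjective q
    exact 𝒟.e_add_left x y w
  · intro x q q'
    obtain ⟨w, rfl⟩ := QuotientAddGroup.mk_surjective q
    obtain ⟨w', rfl⟩ := QuotientAddGroup.mk_surjective q'
    exact 𝒟.e_add_right x w w'
  · intro x h
    exact Subtype.ext (𝒟.nondeg_left x fun w => h (QuotientAddGroup.mk w))
  · intro q h
    obtain ⟨w, rfl⟩ := QuotientAddGroup.mk_surjective q
    rw [QuotientAddGroup.eq_zero_iff]
    intro x hx
    exact h ⟨x, hx⟩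
  · intro γ x q
    obtain ⟨w, rfl⟩ := QuotientAddGroup.mk_surjective q
    exact 𝒟.e_act γ x w
  · exact ⟨1, 𝒟.one_mem_H, rfl⟩
  · rintro _ ⟨F, hF, rfl⟩ _ ⟨G, hG, rfl⟩
    exact ⟨F * G, 𝒟.mul_mem_H F hF G hG, rfl⟩
  · exact 𝒟.one_mem_B
  · intro c hc c' hc'
    exact 𝒟.mul_mem_B _ hc _ hc'

/-- The sub-object. -/
def sub (C : AddSubgroup X) (hC : 𝒟.Stable C) : DualPair P Γ C (X' ⧸ 𝒟.perp C) :=
  (𝒟.exists_sub C hC).choose

section sub
variable (C : AddSubgroup X) (hC : 𝒟.Stable C)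

theorem sub_act (γ : Γ) (x : C) : (((𝒟.sub C hC).act γ x : C) : X) = 𝒟.act γ x :=
  (𝒟.exists_sub C hC).choose_spec.1 γ x

theorem sub_act' (γ : Γ) (w : X') :
    (𝒟.sub C hC).act' γ (QuotientAddGroup.mk w) = QuotientAddGroup.mk (𝒟.act' γ w) :=
  (𝒟.exists_sub C hC).choose_spec.2.1 γ w

theorem sub_e (x : C) (w : X') : (𝒟.sub C hC).e x (QuotientAddGroup.mk w) = 𝒟.e x w :=
  (𝒟.exists_sub C hC).choose_spec.2.2.1 x w

theorem mem_sub_H (f : C → Qb) : f ∈ (𝒟.sub C hC).H ↔ ∃ F ∈ 𝒟.H, ∀ x : C, f x = F x :=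
  (𝒟.exists_sub C hC).choose_spec.2.2.2.1 f

theorem mem_sub_B (b : X' ⧸ 𝒟.perp C → Qb) :
    b ∈ (𝒟.sub C hC).B ↔ (fun w : X' => b (QuotientAddGroup.mk w)) ∈ 𝒟.B :=
  (𝒟.exists_sub C hC).choose_spec.2.2.2.2 b

/-- `Sge` does not change in a sub-object. -/
theorem sub_sge (x : C) (a : Qb) : (𝒟.sub C hC).Sge x a ↔ 𝒟.Sge (x : X) a := by
  constructor
  · intro h F hF
    exact h (fun y : C => F y) ((𝒟.mem_sub_H C hC _).mpr ⟨F, hF, fun _ => rfl⟩)
  · intro h f hf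
    obtain ⟨F, hF, hfF⟩ := (𝒟.mem_sub_H C hC f).mp hf
    rw [hfF, hfF]
    exact h F hF

/-- `Sge'` can only increase in the dual of a sub-object (= a quotient of `X'`). -/
theorem sub_sge' (w : X') (a : Qb) (h : 𝒟.Sge' w a) : (𝒟.sub C hC).Sge' (QuotientAddGroup.mk w) a := by
  intro b hb
  exact h _ ((𝒟.mem_sub_B C hC b).mp hb)

end sub

/-- **A3 (QUOT).**  The dual pair on `(X/C, C^⊥)`: `H_{X/C} = {f | f ∘ proj ∈ H}`, `B_{C^⊥} = B|_{C^⊥}`.
PROOF: apply `exists_sub` to `𝒟.swap` and `C^⊥`, swap back, and transport along `X/C^⊥⊥ = X/C` (`mem_of_forall_perp`). -/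
theorem exists_quot (C : AddSubgroup X) (hC : 𝒟.Stable C) :
    ∃ 𝒬 : DualPair P Γ (X ⧸ C) (𝒟.perp C),
      (∀ (γ : Γ) (x : X), 𝒬.act γ (QuotientAddGroup.mk x) = QuotientAddGroup.mk (𝒟.act γ x)) ∧
      (∀ (γ : Γ) (w : 𝒟.perp C), ((𝒬.act' γ w : 𝒟.perp C) : X') = 𝒟.act' γ w) ∧
      (∀ (x : X) (w : 𝒟.perp C), 𝒬.e (QuotientAddGroup.mk x) w = 𝒟.e x w) ∧
      (∀ f : X ⧸ C → Qb, f ∈ 𝒬.H ↔ (fun x : X => f (QuotientAddGroup.mk x)) ∈ 𝒟.H) ∧
      (∀ b : 𝒟.perp C → Qb, b ∈ 𝒬.B ↔ ∃ F ∈ 𝒟.B, ∀ w : 𝒟.perp C, b w = F w) := by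
  have key := 𝒟.swap.exists_sub (𝒟.perp C) (𝒟.stable_perp hC)
  rw [𝒟.SubQuot_perp_perp C] at key
  obtain ⟨𝒮, h1, h2, h3, h4, h5⟩ := key
  exact ⟨𝒮.swap, h2, h1, fun x w => h3 w x, h5, h4⟩

/-- The quotient. -/
def quot (C : AddSubgroup X) (hC : 𝒟.Stable C) : DualPair P Γ (X ⧸ C) (𝒟.perp C) :=
  (𝒟.exists_quot C hC).choose

section quot
variable (C : AddSubgroup X) (hC : 𝒟.Stable C)

theorem quot_act (γ : Γ) (x : X) :
    (𝒟.quot C hC).act γ (QuotientAddGroup.mk x) = QuotientAddGroup.mk (𝒟.act γ x) :=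
  (𝒟.exists_quot C hC).choose_spec.1 γ x

theorem quot_act' (γ : Γ) (w : 𝒟.perp C) : (((𝒟.quot C hC).act' γ w : 𝒟.perp C) : X') = 𝒟.act' γ w :=
  (𝒟.exists_quot C hC).choose_spec.2.1 γ w

theorem quot_e (x : X) (w : 𝒟.perp C) : (𝒟.quot C hC).e (QuotientAddGroup.mk x) w = 𝒟.e x w :=
  (𝒟.exists_quot C hC).choose_spec.2.2.1 x w

theorem mem_quot_H (f : X ⧸ C → Qb) :
    f ∈ (𝒟.quot C hC).H ↔ (fun x : X => f (QuotientAddGroup.mk x)) ∈ 𝒟.H :=
  (𝒟.exists_quot C hC).choose_spec.2.2.2.1 f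

theorem mem_quot_B (b : 𝒟.perp C → Qb) : b ∈ (𝒟.quot C hC).B ↔ ∃ F ∈ 𝒟.B, ∀ w : 𝒟.perp C, b w = F w :=
  (𝒟.exists_quot C hC).choose_spec.2.2.2.2 b

/-- `Sge` can only increase in a quotient. -/
theorem quot_sge (x : X) (a : Qb) (h : 𝒟.Sge x a) : (𝒟.quot C hC).Sge (QuotientAddGroup.mk x) a := by
  intro f hf
  exact h _ ((𝒟.mem_quot_H C hC f).mp hf)

/-- A `C`-invariant function of `H` bounds `Sge` in the quotient from above. -/
theorem quot_sge_dv {F : X → Qb} (hF : F ∈ 𝒟.H) (hinv : ∀ x, ∀ c ∈ C, F (x + c) = F x) (x : X) (a : Qb)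
    (h : (𝒟.quot C hC).Sge (QuotientAddGroup.mk x) a) : Dv P a (F x - F 0) := by
  set f : X ⧸ C → Qb := fun q => Quotient.liftOn' q F (by
    intro y z hyz
    have h1 : -y + z ∈ C := QuotientAddGroup.leftRel_apply.mp hyz
    have h2 := hinv y _ h1
    rw [add_neg_cancel_left] at h2
    exact h2.symm) with hf_def
  have hf : f ∈ (𝒟.quot C hC).H := (𝒟.mem_quot_H C hC f).mpr hF
  exact h f hf

end quot

end DualPair

end Fermat.Agent.S56.F

end
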