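/-
S56 block (F), F-A ORDERS, A5-A8: the invariant `Sge` and the Galois action.   (Blueprint: report 279.)
-/
import Fermat.Agent.S56.F.Order.Basic

set_option autoImplicit false

open Fermat.Agent.PT.Local

noncomputable section

namespace Fermat.Agent.S56.F

namespace DualPair

variable {P : Plc} {Γ : Subgroup GQ} {X X' : Type} [AddCommGroup X] [AddCommGroup X']
  [Finite X] [Finite X'] (𝒟 : DualPair P Γ X X')

/-- `act γ` as an element of the ring `AddMonoid.End X`. -/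
def actE (γ : Γ) : AddMonoid.End X := 𝒟.act γ

@[simp] theorem actE_apply (γ : Γ) (x : X) : 𝒟.actE γ x = 𝒟.act γ x := rfl

/-- `Sge` can be tested on a generating family. -/
theorem sge_iff_of_span {ι : Type} (f : ι → X → Qb) (hf : 𝒟.H = Submodule.span P.A (Set.range f)) (x y : X)
    (a : Qb) : (∀ g ∈ 𝒟.H, Dv P a (g x - g y)) ↔ ∀ i, Dv P a (f i x - f i y) := by
  constructor
  · intro h i
    exact h _ (by rw [hf]; exact Submodule.subset_span ⟨i, rfl⟩)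
  · intro h g hg
    rw [hf] at hg
    induction hg using Submodule.span_induction with
    | mem g hg =>
      obtain ⟨i, rfl⟩ := hg
      exact h i
    | zero => simp [Dv]
    | add g g' _ _ hg hg' =>
      have h1 := Dv.add hg hg'
      have h2 : (g + g') x - (g + g') y = g x - g y + (g' x - g' y) := by
        simp only [Pi.add_apply]; ring
      rwa [h2]
    | smul c g _ hg =>
      have h1 := Dv.mul_left hg c.2
      have h2 : (c • g) x - (c • g) y = (c : Qb) * (g x - g y) := by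
        have h3 : ∀ z : Qb, c • z = (c : Qb) * z := fun z => rfl
        simp only [Pi.smul_apply, h3]; ring
      rwa [h2]

theorem eq_zero_of_sge_zero {x : X} (h : 𝒟.Sge x 0) : x = 0 := by
  apply 𝒟.nondeg_left
  intro w
  have h2 := h _ (𝒟.e_mem_H w)
  simp only [𝒟.e_zero_left] at h2
  unfold Dv at h2
  rw [map_zero, le_zero_iff, map_eq_zero, sub_eq_zero] at h2
  exact h2

/-- **A5 (attained).**  "`s(x) = v(f0 x)`" for an equivariant `f0 ∈ H` vanishing at `0`.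
PROOF: equivariant basis `f_i`; `f0 = f_i - f_i 0` for the index `i` with `v (f_i x - f_i 0)` maximal
(`f_i 0` is `Γ`-fixed since `act γ 0 = 0`, and lies in `P.A`). -/
theorem exists_attained (x : X) :
    ∃ f0 ∈ 𝒟.H, Equi 𝒟.act f0 ∧ f0 0 = 0 ∧ ∀ a, 𝒟.Sge x a ↔ Dv P a (f0 x) := by
  classical
  obtain ⟨ι, _, φ, hφ, -, -, hH⟩ := 𝒟.basis_H
  have hmem : ∀ i, φ i ∈ 𝒟.H := fun i => by
    rw [hH]; exact Submodule.subset_span ⟨i, rfl⟩
  have hS : ∀ a, 𝒟.Sge x a ↔ ∀ i, Dv P a (φ i x - φ i 0) := fun a => 𝒟.sge_iff_of_span φ hH x 0 a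
  rcases isEmpty_or_nonempty ι with hι | hι
  · refine ⟨0, 𝒟.H.zero_mem, fun γ x => by simp, rfl, fun a => ?_⟩
    rw [hS]
    simp [Dv]
  · obtain ⟨i, -, hi⟩ := Finset.exists_max_image Finset.univ (fun i => P.v (φ i x - φ i 0))
      Finset.univ_nonempty
    have hconst : (fun _ : X => φ i 0) ∈ 𝒟.H := by
      have h1 := 𝒟.H.smul_mem ⟨φ i 0, 𝒟.apply_mem (hmem i) 0⟩ 𝒟.one_mem_H
      have h2 : ((⟨φ i 0, 𝒟.apply_mem (hmem i) 0⟩ : P.A) • (1 : X → Qb)) = fun _ : X => φ i 0 := by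
        funext y
        have h3 : ∀ (c : P.A) (z : Qb), c • z = (c : Qb) * z := fun c z => rfl
        simp only [Pi.smul_apply, h3, Pi.one_apply, mul_one]
      rwa [h2] at h1
    refine ⟨φ i - fun _ => φ i 0, 𝒟.H.sub_mem (hmem i) hconst, ?_, by simp, fun a => ?_⟩
    · intro γ y
      simp only [Pi.sub_apply, map_sub]
      rw [hφ i γ y, ← hφ i γ 0, map_zero]
    · rw [hS]
      constructor
      · intro h
        exact h i
      · intro h j
        exact le_trans (hi j (Finset.mem_univ _)) h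

/-- values of equivariant functions at `x` are fixed by the stabiliser of `x`. -/
theorem fixedByStab_of_equi {f : X → Qb} (hf : Equi 𝒟.act f) (x : X) : 𝒟.FixedByStab x (f x) := by
  rintro σ ⟨h, hσ⟩
  have := hf ⟨σ, h⟩ x
  rw [hσ] at this
  exact this.symm

/-- **A6 (DEPTH).**  If `w ∣ γ a - a` for all integral `a` fixed by the stabiliser of `x`, then `s(γ x - x) ≥ v(w)`. -/
theorem sge_of_depth (x : X) (γ : Γ) (w : Qb)
    (h : ∀ a ∈ P.A, 𝒟.FixedByStab x a → Dv P w ((γ : GQ) a - a)) : 𝒟.Sge (𝒟.act γ x - x) w := by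
  obtain ⟨ι, _, φ, hφ, -, -, hH⟩ := 𝒟.basis_H
  rw [𝒟.sge_sub_iff, 𝒟.sge_iff_of_span φ hH]
  intro i
  rw [hφ i γ x]
  exact h _ (𝒟.apply_mem (by rw [hH]; exact Submodule.subset_span ⟨i, rfl⟩) x)
    (𝒟.fixedByStab_of_equi (hφ i) x)

/-- **A7 (etale quotient).**  Inertia acts trivially modulo the connected part. -/
theorem conn_act_sub (γ : Γ) (hγ : (γ : GQ) ∈ P.ine) (x : X) : 𝒟.Conn (𝒟.act γ x - x) := by
  classical
  obtain ⟨ι, _, φ, hφ, -, -, hH⟩ := 𝒟.basis_H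
  have hmem : ∀ i, φ i ∈ 𝒟.H := fun i => by
    rw [hH]; exact Submodule.subset_span ⟨i, rfl⟩
  have hlt : ∀ i, P.v (φ i (𝒟.act γ x) - φ i x) < 1 := fun i => by
    rw [hφ i γ x]
    exact ((mem_ine_iff P _).mp hγ).2 _ (𝒟.apply_mem (hmem i) x)
  rcases isEmpty_or_nonempty ι with hι | hι
  · refine ⟨0, by simp [InM], ?_⟩
    rw [𝒟.sge_sub_iff, 𝒟.sge_iff_of_span φ hH]
    intro i
    exact isEmptyElim i
  · obtain ⟨i, -, hi⟩ := Finset.exists_max_image Finset.univ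
      (fun i => P.v (φ i (𝒟.act γ x) - φ i x)) Finset.univ_nonempty
    refine ⟨φ i (𝒟.act γ x) - φ i x, hlt i, ?_⟩
    rw [𝒟.sge_sub_iff, 𝒟.sge_iff_of_span φ hH]
    intro j
    exact hi j (Finset.mem_univ _)

/-- If `X` is etale (`s = 0` outside `0`) then inertia acts trivially. -/
theorem act_eq_of_etale (het : ∀ x, 𝒟.Conn x → x = 0) (γ : Γ) (hγ : (γ : GQ) ∈ P.ine) (x : X) :
    𝒟.act γ x = x :=
  sub_eq_zero.mp (het _ (𝒟.conn_act_sub γ hγ x))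

/-- If inertia acts trivially on `X'` and `X` is killed by `p`, then `γ ∈ Γ ∩ I` acts on `X` by the cyclotomic character:
`γ ζ = ζ ^ m` for all `p`-th roots of unity `ζ` implies `act γ x = m • x`. -/
theorem act_eq_nsmul_of_act' (hpX : ∀ x : X, P.ℓ • x = 0) (γ : Γ) (h' : ∀ w, 𝒟.act' γ w = w) (m : ℕ)
    (hm : ∀ ζ : Qb, ζ ^ P.ℓ = 1 → (γ : GQ) ζ = ζ ^ m) (x : X) : 𝒟.act γ x = m • x := by
  rw [← sub_eq_zero]
  apply 𝒟.nondeg_left
  intro w
  have h1 : 𝒟.e x w ^ P.ℓ = 1 := by rw [← 𝒟.e_nsmul_left, hpX, 𝒟.e_zero_left]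
  have h2 : 𝒟.e (𝒟.act γ x) w = 𝒟.e (m • x) w := by
    have h3 := 𝒟.e_act γ x w
    rw [h' w, hm _ h1, ← 𝒟.e_nsmul_left] at h3
    exact h3
  rw [sub_eq_add_neg, 𝒟.e_add_left, 𝒟.e_neg_left, h2]
  exact mul_inv_cancel₀ (𝒟.e_ne_zero _ _)

theorem Points_v_sq_lt {a : Qb} (ha : a ≠ 0) (ha1 : InM P a) : P.v (a * a) < P.v a := by
  have hva : 0 < P.v a := zero_lt_iff.mpr ((Valuation.ne_zero_iff _).mpr ha)
  rw [map_mul]
  calc P.v a * P.v a < 1 * P.v a := mul_lt_mul_of_pos_right ha1 hva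
    _ = P.v a := one_mul _

/-- the ring of pairs `(T, t)`: `T` an endomorphism of `X` preserving the level `a` and acting on
`gr^a X` "by the scalar `t`" (tested on the function `f`). -/
def Points_tameRing {a : Qb} (ha : a ≠ 0) (ha1 : InM P a) {f : X → Qb} (hf : f ∈ 𝒟.H) :
    Subring (AddMonoid.End X × Qb) where
  carrier := {p | p.2 ∈ P.A ∧ ∀ y, 𝒟.Sge y a →
    𝒟.Sge (p.1 y) a ∧ P.v ((f (p.1 y) - f 0) - p.2 * (f y - f 0)) < P.v a}
  mul_mem' := by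
    rintro ⟨T, t⟩ ⟨T', t'⟩ ⟨ht, hT⟩ ⟨ht', hT'⟩
    refine ⟨P.A.mul_mem _ _ ht ht', fun y hy => ?_⟩
    obtain ⟨h1, h2⟩ := hT' y hy
    obtain ⟨h3, h4⟩ := hT (T' y) h1
    refine ⟨h3, ?_⟩
    show P.v ((f (T (T' y)) - f 0) - (t * t') * (f y - f 0)) < P.v a
    have e : (f (T (T' y)) - f 0) - (t * t') * (f y - f 0) =
        ((f (T (T' y)) - f 0) - t * (f (T' y) - f 0)) +
          t * ((f (T' y) - f 0) - t' * (f y - f 0)) := by ring
    rw [e]
    refine lt_of_le_of_lt (Valuation.map_add _ _ _) (max_lt h4 ?_)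
    rw [map_mul]
    exact lt_of_le_of_lt
      (mul_le_of_le_one_left' ((ValuationSubring.valuation_le_one_iff _ _).2 ht)) h2
  one_mem' := by
    refine ⟨P.A.one_mem, fun y hy => ⟨hy, ?_⟩⟩
    show P.v ((f y - f 0) - 1 * (f y - f 0)) < P.v a
    rw [one_mul, sub_self, map_zero]
    exact zero_lt_iff.mpr ((Valuation.ne_zero_iff _).mpr ha)
  add_mem' := by
    rintro ⟨T, t⟩ ⟨T', t'⟩ ⟨ht, hT⟩ ⟨ht', hT'⟩
    refine ⟨P.A.add_mem _ _ ht ht', fun y hy => ?_⟩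
    obtain ⟨h1, h2⟩ := hT' y hy
    obtain ⟨h3, h4⟩ := hT y hy
    refine ⟨Sge.add 𝒟 h3 h1, ?_⟩
    show P.v ((f (T y + T' y) - f 0) - (t + t') * (f y - f 0)) < P.v a
    have e : (f (T y + T' y) - f 0) - (t + t') * (f y - f 0) =
        (f (T y + T' y) - f (T y) - f (T' y) + f 0) +
          (((f (T y) - f 0) - t * (f y - f 0)) + ((f (T' y) - f 0) - t' * (f y - f 0))) := by ring
    rw [e]
    refine lt_of_le_of_lt (Valuation.map_add _ _ _) (max_lt ?_ ?_)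
    · exact lt_of_le_of_lt (𝒟.sge_add_sub h3 h1 hf) (Points_v_sq_lt ha ha1)
    · exact lt_of_le_of_lt (Valuation.map_add _ _ _) (max_lt h4 h2)
  zero_mem' := by
    refine ⟨P.A.zero_mem, fun y _ => ⟨𝒟.sge_zero a, ?_⟩⟩
    show P.v ((f 0 - f 0) - 0 * (f y - f 0)) < P.v a
    rw [zero_mul, sub_self, sub_self, map_zero]
    exact zero_lt_iff.mpr ((Valuation.ne_zero_iff _).mpr ha)
  neg_mem' := by
    rintro ⟨T, t⟩ ⟨ht, hT⟩
    refine ⟨P.A.neg_mem _ ht, fun y hy => ?_⟩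
    obtain ⟨h3, h4⟩ := hT y hy
    refine ⟨Sge.neg 𝒟 h3, ?_⟩
    show P.v ((f (-(T y)) - f 0) - (-t) * (f y - f 0)) < P.v a
    have h5 := 𝒟.sge_add_sub h3 (Sge.neg 𝒟 h3) hf
    rw [add_neg_cancel] at h5
    have e : (f (-(T y)) - f 0) - (-t) * (f y - f 0) =
        -(f 0 - f (T y) - f (-(T y)) + f 0) - ((f (T y) - f 0) - t * (f y - f 0)) := by ring
    rw [e]
    refine lt_of_le_of_lt (Valuation.map_sub _ _ _) (max_lt ?_ h4)
    rw [Valuation.map_neg]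
    exact lt_of_le_of_lt h5 (Points_v_sq_lt ha ha1)

theorem Points_mem_tameRing {a : Qb} (ha : a ≠ 0) (ha1 : InM P a) {f : X → Qb} (hf : f ∈ 𝒟.H)
    (p : AddMonoid.End X × Qb) : p ∈ 𝒟.Points_tameRing ha ha1 hf ↔ p.2 ∈ P.A ∧ ∀ y, 𝒟.Sge y a →
    𝒟.Sge (p.1 y) a ∧ P.v ((f (p.1 y) - f 0) - p.2 * (f y - f 0)) < P.v a := Iff.rfl

theorem Points_act_mem_tameRing (hΓ : Γ ≤ P.dec) (γ : Γ) (hγ : (γ : GQ) ∈ P.ine) {a : Qb}
    (ha : a ≠ 0) (ha1 : InM P a) {f : X → Qb} (hf : f ∈ 𝒟.H) (hfe : Equi 𝒟.act f) :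
    (𝒟.actE γ, (γ : GQ) a / a) ∈ 𝒟.Points_tameRing ha ha1 hf := by
  have hva : 0 < P.v a := zero_lt_iff.mpr ((Valuation.ne_zero_iff _).mpr ha)
  rw [Points_mem_tameRing]
  refine ⟨?_, fun y hy => ⟨Sge.act 𝒟 hΓ hy γ, ?_⟩⟩
  · rw [← ValuationSubring.valuation_le_one_iff]
    show P.v ((γ : GQ) a / a) ≤ 1
    rw [map_div₀, v_map P (hΓ γ.2), div_self hva.ne']
  · show P.v ((f (𝒟.act γ y) - f 0) - (γ : GQ) a / a * (f y - f 0)) < P.v a
    obtain ⟨c, hc, hc2⟩ := (dv_iff_exists P ha _).mp (hy f hf)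
    have h0 : f 0 = (γ : GQ) (f 0) := by
      rw [← hfe γ 0, map_zero]
    have e : (f (𝒟.act γ y) - f 0) - (γ : GQ) a / a * (f y - f 0) =
        (γ : GQ) a * ((γ : GQ) c - c) := by
      have h1 : f (𝒟.act γ y) - f 0 = (γ : GQ) (f y - f 0) := by
        rw [map_sub, ← h0, hfe γ y]
      rw [h1, hc2, map_mul]
      field_simp
    rw [e, map_mul, v_map P (hΓ γ.2)]
    calc P.v a * P.v ((γ : GQ) c - c) < P.v a * 1 :=
          mul_lt_mul_of_pos_left (((mem_ine_iff P _).mp hγ).2 c hc) hva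
      _ = P.v a := mul_one _

theorem Points_aeval_mem {A B : Type*} [Ring A] [Ring B] (S : Subring (A × B)) {T : A} {t : B}
    (h : (T, t) ∈ S) (Q : Polynomial ℤ) :
    (Polynomial.aeval T Q, Polynomial.aeval t Q) ∈ S := by
  induction Q using Polynomial.induction_on' with
  | add p q hp hq =>
    rw [map_add, map_add]
    exact S.add_mem hp hq
  | monomial n c =>
    rw [Polynomial.aeval_monomial, Polynomial.aeval_monomial, eq_intCast, eq_intCast]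
    exact S.mul_mem (intCast_mem S c) (S.pow_mem h n)

theorem Points_exists_c {ι : Type} [Finite ι] {a : Qb} (ha : a ≠ 0) (b : ι → Qb)
    (hb : ∀ i, P.v (b i) < P.v a) : ∃ c, InM P c ∧ ∀ i, Dv P (a * c) (b i) := by
  have hva : 0 < P.v a := zero_lt_iff.mpr ((Valuation.ne_zero_iff _).mpr ha)
  rcases isEmpty_or_nonempty ι with h | h
  · exact ⟨0, by simp [InM], fun i => h.elim i⟩
  · obtain ⟨i₀, hi₀⟩ := Finite.exists_max (fun i => P.v (b i))
    refine ⟨b i₀ / a, ?_, fun i => ?_⟩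
    · show P.v (b i₀ / a) < 1
      rw [map_div₀, div_lt_one₀ hva]
      exact hb i₀
    · show P.v (b i) ≤ P.v (a * (b i₀ / a))
      rw [mul_div_cancel₀ _ ha]
      exact hi₀ i

/-- **A8 (TAME).**  On `gr^a X` an element `γ` of inertia acts "by the scalar `θ(a,γ) = γ a / a mod m`":
if `Q ∈ ℤ[T]` kills `θ(a,γ)` in the residue field, then `Q(act γ)` maps `{s ≥ v(a)}` into `{s > v(a)}`.
PROOF: equivariant basis `f_i`; `ι_i y := (f_i y - f_i 0)/a ∈ O` for `y` of level `a`; `ι_i (y + y') ≡ ι_i y + ι_i y'` mod `m`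
(`sge_add_sub`, `a ∈ m`); `ι_i (act γ y) = (γ a / a) γ(ι_i y) ≡ (γ a / a) ι_i y` mod `m` (`mem_ine_iff`).  Hence
`ι_i (Q(act γ) y) ≡ Q(γ a / a) ι_i y ≡ 0`; finitely many `i`. -/
theorem tame (hΓ : Γ ≤ P.dec) (γ : Γ) (hγ : (γ : GQ) ∈ P.ine) {a : Qb} (ha : a ≠ 0) (ha1 : InM P a) {x : X}
    (hx : 𝒟.Sge x a) (Q : Polynomial ℤ) (hQ : InM P (Polynomial.aeval ((γ : GQ) a / a) Q)) :
    ∃ c, InM P c ∧ 𝒟.Sge (Polynomial.aeval (𝒟.actE γ) Q x) (a * c) := by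
  have hva : 0 < P.v a := zero_lt_iff.mpr ((Valuation.ne_zero_iff _).mpr ha)
  obtain ⟨ι, _, φ, hφ, -, -, hH⟩ := 𝒟.basis_H
  have hmem : ∀ i, φ i ∈ 𝒟.H := fun i => by
    rw [hH]
    exact Submodule.subset_span ⟨i, rfl⟩
  have key : ∀ i, P.v (φ i (Polynomial.aeval (𝒟.actE γ) Q x) - φ i 0) < P.v a := by
    intro i
    have h1 := Points_aeval_mem _ (𝒟.Points_act_mem_tameRing hΓ γ hγ ha ha1 (hmem i) (hφ i)) Q
    rw [Points_mem_tameRing] at h1
    have h2 : P.v ((φ i (Polynomial.aeval (𝒟.actE γ) Q x) - φ i 0) -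
        Polynomial.aeval ((γ : GQ) a / a) Q * (φ i x - φ i 0)) < P.v a := (h1.2 x hx).2
    have h3 : P.v (Polynomial.aeval ((γ : GQ) a / a) Q * (φ i x - φ i 0)) < P.v a := by
      rw [map_mul]
      calc P.v (Polynomial.aeval ((γ : GQ) a / a) Q) * P.v (φ i x - φ i 0)
          ≤ P.v (Polynomial.aeval ((γ : GQ) a / a) Q) * P.v a :=
            mul_le_mul_right (hx _ (hmem i)) _
        _ < 1 * P.v a := mul_lt_mul_of_pos_right hQ hva
        _ = P.v a := one_mul _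
    have h4 := lt_of_le_of_lt (Valuation.map_add P.v _ _) (max_lt h2 h3)
    rwa [sub_add_cancel] at h4
  obtain ⟨c, hc, hc2⟩ := Points_exists_c (P := P) ha _ key
  exact ⟨c, hc, (𝒟.sge_iff_of_span φ hH _ 0 (a * c)).2 hc2⟩

/-- The deepest level. -/
theorem exists_top [Nontrivial X] :
    ∃ a : Qb, a ≠ 0 ∧ (∃ x, x ≠ 0 ∧ 𝒟.Sge x a) ∧ ∀ x c, InM P c → 𝒟.Sge x (a * c) → x = 0 := by
  classical
  let _ := Fintype.ofFinite X
  have hex : ∀ x : X, ∃ t : Qb, ∀ a, 𝒟.Sge x a ↔ Dv P a t := fun x => by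
    obtain ⟨f0, -, -, -, h⟩ := 𝒟.exists_attained x
    exact ⟨f0 x, h⟩
  choose t ht using hex
  have ht0 : ∀ x, x ≠ 0 → t x ≠ 0 := fun x hx h0 =>
    hx (𝒟.eq_zero_of_sge_zero ((ht x 0).mpr (by rw [h0]; exact Dv.refl P 0)))
  obtain ⟨y, hy⟩ := exists_ne (0 : X)
  obtain ⟨x0, hx0, hmin⟩ := Finset.exists_min_image (Finset.univ.filter (fun x : X => x ≠ 0))
    (fun x => P.v (t x)) ⟨y, by simp [hy]⟩
  have hx0' : x0 ≠ 0 := (Finset.mem_filter.mp hx0).2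
  refine ⟨t x0, ht0 x0 hx0', ⟨x0, hx0', (ht x0 _).mpr (Dv.refl P _)⟩, fun x c hc hx => ?_⟩
  by_contra hne
  have h1 : P.v (t x) ≤ P.v (t x0 * c) := (ht x _).mp hx
  have h2 : P.v (t x0) ≤ P.v (t x) := hmin x (Finset.mem_filter.mpr ⟨Finset.mem_univ _, hne⟩)
  have h3 : P.v (t x0 * c) < P.v (t x0) := by
    rw [map_mul]
    exact mul_lt_of_lt_one_right (zero_lt_iff.mpr ((Valuation.ne_zero_iff _).mpr (ht0 x0 hx0'))) hc
  exact absurd (lt_of_le_of_lt (le_trans h2 h1) h3) (lt_irrefl _)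

/-- **T1.**  On the deepest level `γ ∈ Γ ∩ I` satisfies every integral polynomial killing `θ(a,γ)`
(if the deepest level `a` is not a unit). -/
theorem aeval_act_eq_zero_of_top (hΓ : Γ ≤ P.dec) {a : Qb} (ha : a ≠ 0) (ha1 : InM P a)
    (htop : ∀ x c, InM P c → 𝒟.Sge x (a * c) → x = 0) (γ : Γ) (hγ : (γ : GQ) ∈ P.ine) {x : X}
    (hx : 𝒟.Sge x a) (Q : Polynomial ℤ) (hQ : InM P (Polynomial.aeval ((γ : GQ) a / a) Q)) :
    Polynomial.aeval (𝒟.actE γ) Q x = 0 := by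
  obtain ⟨c, hc, h⟩ := 𝒟.tame hΓ γ hγ ha ha1 hx Q hQ
  exact htop _ c hc h

end DualPair

end Fermat.Agent.S56.F

end
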